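import Fermat.Agent.S25.DICT.H7710.AffineHom

/-!
# Morphisms of modules on a scheme covered by two affine opens (sections form)

`X` a scheme, `W₁`, `W₂` affine opens covering `X`, with `W₁ ⊓ W₂ = D(s₁) = D(s₂)` principal
in both.  For a quasi-coherent `M` and ANY module `N` on `X`:

* `hom_ext_of_sections` : a morphism `M ⟶ N` is determined by its action on `Γ(-, W₁)`, `Γ(-, W₂)`;
* `existsUnique_hom_of_sections` : (UP) every compatible triple of `𝒪`-linear maps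
  `Γ(M, W₁) → Γ(N, W₁)`, `Γ(M, W₂) → Γ(N, W₂)`, `Γ(M, W₁ ⊓ W₂) → Γ(N, W₁ ⊓ W₂)` comes from a
  unique morphism `M ⟶ N`;
* `exists_iso_of_sections` : (ISO) a compatible triple of `𝒪`-linear additive equivalences
  between quasi-coherent modules comes from an isomorphism.

Mathlib-only; helper7710.
-/

set_option autoImplicit false

universe u

open CategoryTheory AlgebraicGeometry TopologicalSpace Opposite

noncomputable section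

namespace Fermat.Agent.S25.DICT.H7710

variable {X : Scheme.{u}}

/-- Gluing sections-level families of maps over two opens covering `X`. -/
theorem exists_hom_of_two {W₁ W₂ : X.Opens} (hcov : W₁ ⊔ W₂ = ⊤) (M N : X.Modules)
    (g₁ : ∀ V : X.Opens, V ≤ W₁ → (Γ(M, V) →+ Γ(N, V)))
    (g₂ : ∀ V : X.Opens, V ≤ W₂ → (Γ(M, V) →+ Γ(N, V)))
    (g₁_res : ∀ (V W : X.Opens) (h : V ≤ W₁) (hW : W ≤ V) (x : Γ(M, V)),
      g₁ W (hW.trans h) (res M hW x) = res N hW (g₁ V h x))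
    (g₂_res : ∀ (V W : X.Opens) (h : V ≤ W₂) (hW : W ≤ V) (x : Γ(M, V)),
      g₂ W (hW.trans h) (res M hW x) = res N hW (g₂ V h x))
    (g₁_smul : ∀ (V : X.Opens) (h : V ≤ W₁) (r : Γ(X, V)) (x : Γ(M, V)),
      g₁ V h (r • x) = r • g₁ V h x)
    (g₂_smul : ∀ (V : X.Opens) (h : V ≤ W₂) (r : Γ(X, V)) (x : Γ(M, V)),
      g₂ V h (r • x) = r • g₂ V h x)
    (compat : ∀ (V : X.Opens) (h₁ : V ≤ W₁) (h₂ : V ≤ W₂) (x : Γ(M, V)),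
      g₁ V h₁ x = g₂ V h₂ x) :
    ∃ φ : M ⟶ N, (∀ (V : X.Opens) (h : V ≤ W₁) (x : Γ(M, V)), φ.app V x = g₁ V h x) ∧
      (∀ (V : X.Opens) (h : V ≤ W₂) (x : Γ(M, V)), φ.app V x = g₂ V h x) := by
  let U : Bool → X.Opens := fun b => cond b W₁ W₂
  have hU : ⨆ b, U b = ⊤ := by
    rw [iSup_bool_eq]
    exact hcov
  let f : ∀ (b : Bool) (V : X.Opens), V ≤ U b → (Γ(M, V) →+ Γ(N, V)) :=
    fun b => Bool.rec (motive := fun b => ∀ V : X.Opens, V ≤ U b → (Γ(M, V) →+ Γ(N, V))) g₂ g₁ b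
  have f_res : ∀ (i : Bool) (V W : X.Opens) (h : V ≤ U i) (hW : W ≤ V) (x : Γ(M, V)),
      f i W (hW.trans h) (res M hW x) = res N hW (f i V h x) := by
    intro i
    cases i
    · exact g₂_res
    · exact g₁_res
  have f_smul : ∀ (i : Bool) (V : X.Opens) (h : V ≤ U i) (r : Γ(X, V)) (x : Γ(M, V)),
      f i V h (r • x) = r • f i V h x := by
    intro i
    cases i
    · exact g₂_smul
    · exact g₁_smul
  have f_compat : ∀ (i j : Bool) (V : X.Opens) (hi : V ≤ U i) (hj : V ≤ U j) (x : Γ(M, V)),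
      f i V hi x = f j V hj x := by
    intro i j
    cases i <;> cases j
    · intro V hi hj x; rfl
    · intro V hi hj x; exact (compat V hj hi x).symm
    · intro V hi hj x; exact compat V hi hj x
    · intro V hi hj x; rfl
  refine ⟨glueHom U hU M N f f_res f_smul f_compat, ?_, ?_⟩
  · intro V h x
    exact glueHom_app_eq U hU M N f f_res f_smul f_compat true V h x
  · intro V h x
    exact glueHom_app_eq U hU M N f f_res f_smul f_compat false V h x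

/-- A morphism of modules is determined by its action on the sections over the opens contained
in one of two opens covering `X`. -/
theorem hom_ext_of_two {W₁ W₂ : X.Opens} (hcov : W₁ ⊔ W₂ = ⊤) {M N : X.Modules} (φ φ' : M ⟶ N)
    (h₁ : ∀ (V : X.Opens) (_ : V ≤ W₁) (x : Γ(M, V)), φ.app V x = φ'.app V x)
    (h₂ : ∀ (V : X.Opens) (_ : V ≤ W₂) (x : Γ(M, V)), φ.app V x = φ'.app V x) : φ = φ' := by
  let U : Bool → X.Opens := fun b => cond b W₁ W₂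
  have hU : ⨆ b, U b = ⊤ := by
    rw [iSup_bool_eq]
    exact hcov
  apply Scheme.Modules.hom_ext
  intro V
  apply AddCommGrpCat.hom_ext
  apply AddMonoidHom.ext
  intro x
  apply glueHom_ext U hU N V
  intro b
  rw [← app_res, ← app_res]
  cases b
  · exact h₂ _ inf_le_right _
  · exact h₁ _ inf_le_right _

/-- Restriction of a morphism of restricted modules to a smaller chart. -/
theorem exists_resHomJ {Y Y' : Scheme.{u}} (j : Y ⟶ X) [IsOpenImmersion j] (j' : Y' ⟶ X)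
    [IsOpenImmersion j'] (hle : j'.opensRange ≤ j.opensRange) {M N : X.Modules}
    (f : M.restrict j ⟶ N.restrict j) :
    ∃ F : M.restrict j' ⟶ N.restrict j', ∀ (V : X.Opens) (h : V ≤ j'.opensRange) (x : Γ(M, V)),
      secMapJ j' F V h x = secMapJ j f V (h.trans hle) x :=
  ⟨mkOfSecJ j' (fun V h => secMapJ j f V (h.trans hle))
      (fun _ _ h hW x => secMapJ_res j f (h.trans hle) hW x)
      (fun V h r x => secMapJ_smul j f V (h.trans hle) r x),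
    fun V h x => secMapJ_mkOfSecJ j' _ _ _ V h x⟩

/-! ### Chart form: open immersions `j₁ : Spec R₁ ⟶ X`, `j₂ : Spec R₂ ⟶ X`, `j₁₂ : Spec R₁₂ ⟶ X`
with images `W₁`, `W₂`, `W₁₂`, where `W₁ ⊔ W₂ = ⊤`, `W₁ ⊓ W₂ ≤ W₁₂ ≤ W₁, W₂` and
`W₁₂ = j₁(D(s₁)) = j₂(D(s₂))`. -/

section charts

variable {R₁ R₂ R₁₂ : CommRingCat.{u}} (j₁ : Spec R₁ ⟶ X) (j₂ : Spec R₂ ⟶ X)
  (j₁₂ : Spec R₁₂ ⟶ X) [IsOpenImmersion j₁] [IsOpenImmersion j₂] [IsOpenImmersion j₁₂]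
  {W₁ W₂ W₁₂ : X.Opens} (hW₁ : j₁.opensRange = W₁) (hW₂ : j₂.opensRange = W₂)
  (hW₁₂ : j₁₂.opensRange = W₁₂) (hcov : W₁ ⊔ W₂ = ⊤) (hle₁ : W₁₂ ≤ W₁) (hle₂ : W₁₂ ≤ W₂)
  (hinf : W₁ ⊓ W₂ ≤ W₁₂)
  (s₁ : R₁) (D₁ : (Spec R₁).Opens) (hD₁ : D₁ = PrimeSpectrum.basicOpen s₁)
  (hV₁ : j₁ ''ᵁ D₁ = W₁₂)
  (s₂ : R₂) (D₂ : (Spec R₂).Opens) (hD₂ : D₂ = PrimeSpectrum.basicOpen s₂)
  (hV₂ : j₂ ''ᵁ D₂ = W₁₂)

include hW₁ hW₂ hcov in
/-- A morphism out of a quasi-coherent module on a scheme covered by two affine charts is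
determined by its action on the sections over the two charts. -/
theorem hom_ext_of_charts {M N : X.Modules} [M.IsQuasicoherent] (φ φ' : M ⟶ N)
    (h₁ : ∀ x : Γ(M, W₁), φ.app W₁ x = φ'.app W₁ x)
    (h₂ : ∀ x : Γ(M, W₂), φ.app W₂ x = φ'.app W₂ x) : φ = φ' := by
  have e₁ : (Scheme.Modules.restrictFunctor j₁).map φ =
      (Scheme.Modules.restrictFunctor j₁).map φ' := by
    apply hom_ext_of_secMapJ j₁ hW₁
    intro x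
    rw [secMapJ_restrictFunctor_map, secMapJ_restrictFunctor_map, h₁]
  have e₂ : (Scheme.Modules.restrictFunctor j₂).map φ =
      (Scheme.Modules.restrictFunctor j₂).map φ' := by
    apply hom_ext_of_secMapJ j₂ hW₂
    intro x
    rw [secMapJ_restrictFunctor_map, secMapJ_restrictFunctor_map, h₂]
  apply hom_ext_of_two hcov
  · intro V hV x
    rw [← secMapJ_restrictFunctor_map j₁ φ V (hV.trans hW₁.ge), e₁,
      secMapJ_restrictFunctor_map]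
  · intro V hV x
    rw [← secMapJ_restrictFunctor_map j₂ φ V (hV.trans hW₂.ge), e₂,
      secMapJ_restrictFunctor_map]

include hW₁ hW₂ hW₁₂ hcov hinf hD₁ hV₁ hD₂ hV₂ in
/-- (UP), existence, chart form. -/
theorem exists_hom_of_charts (M N : X.Modules) [M.IsQuasicoherent]
    (u₁ : Γ(M, W₁) →+ Γ(N, W₁)) (u₂ : Γ(M, W₂) →+ Γ(N, W₂)) (u₁₂ : Γ(M, W₁₂) →+ Γ(N, W₁₂))
    (lin₁ : ∀ (r : Γ(X, W₁)) (x : Γ(M, W₁)), u₁ (r • x) = r • u₁ x)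
    (lin₂ : ∀ (r : Γ(X, W₂)) (x : Γ(M, W₂)), u₂ (r • x) = r • u₂ x)
    (lin₁₂ : ∀ (r : Γ(X, W₁₂)) (x : Γ(M, W₁₂)), u₁₂ (r • x) = r • u₁₂ x)
    (c₁ : ∀ x : Γ(M, W₁), u₁₂ (res M hle₁ x) = res N hle₁ (u₁ x))
    (c₂ : ∀ x : Γ(M, W₂), u₁₂ (res M hle₂ x) = res N hle₂ (u₂ x)) :
    ∃ φ : M ⟶ N, (∀ x : Γ(M, W₁), φ.app W₁ x = u₁ x) ∧ (∀ x : Γ(M, W₂), φ.app W₂ x = u₂ x) := by
  obtain ⟨f₁, hf₁⟩ := exists_hom_of_linear j₁ hW₁ u₁ lin₁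
  obtain ⟨f₂, hf₂⟩ := exists_hom_of_linear j₂ hW₂ u₂ lin₂
  have hv₁ : secMapJ j₁ f₁ W₁₂ (hle₁.trans hW₁.ge) = u₁₂ := by
    refine eq_of_eq_on_res j₁ hW₁ s₁ D₁ hD₁ hV₁ hle₁ _ _ (secMapJ_smul j₁ f₁ _ _) lin₁₂ ?_
    intro x
    rw [secMapJ_res j₁ f₁ hW₁.ge hle₁ x, hf₁, c₁]
  have hv₂ : secMapJ j₂ f₂ W₁₂ (hle₂.trans hW₂.ge) = u₁₂ := by
    refine eq_of_eq_on_res j₂ hW₂ s₂ D₂ hD₂ hV₂ hle₂ _ _ (secMapJ_smul j₂ f₂ _ _) lin₁₂ ?_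
    intro x
    rw [secMapJ_res j₂ f₂ hW₂.ge hle₂ x, hf₂, c₂]
  obtain ⟨F₁, hF₁⟩ := exists_resHomJ j₁ j₁₂ (hW₁₂.le.trans (hle₁.trans hW₁.ge))
    (M := M) (N := N) f₁
  obtain ⟨F₂, hF₂⟩ := exists_resHomJ j₂ j₁₂ (hW₁₂.le.trans (hle₂.trans hW₂.ge))
    (M := M) (N := N) f₂
  have hF : F₁ = F₂ := by
    apply hom_ext_of_secMapJ j₁₂ hW₁₂
    intro x
    rw [hF₁, hF₂]
    exact (congrArg (fun v : Γ(M, W₁₂) →+ Γ(N, W₁₂) => v x) hv₁).trans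
      (congrArg (fun v : Γ(M, W₁₂) →+ Γ(N, W₁₂) => v x) hv₂).symm
  obtain ⟨φ, hφ₁, hφ₂⟩ := exists_hom_of_two hcov M N
    (fun V h => secMapJ j₁ f₁ V (h.trans hW₁.ge))
    (fun V h => secMapJ j₂ f₂ V (h.trans hW₂.ge))
    (fun _ _ h hW x => secMapJ_res j₁ f₁ (h.trans hW₁.ge) hW x)
    (fun _ _ h hW x => secMapJ_res j₂ f₂ (h.trans hW₂.ge) hW x)
    (fun V h r x => secMapJ_smul j₁ f₁ V (h.trans hW₁.ge) r x)
    (fun V h r x => secMapJ_smul j₂ f₂ V (h.trans hW₂.ge) r x)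
    (by
      intro V h₁ h₂ x
      have hV : V ≤ j₁₂.opensRange := ((le_inf h₁ h₂).trans hinf).trans hW₁₂.ge
      have e1 := hF₁ V hV x
      have e2 := hF₂ V hV x
      rw [hF] at e1
      exact e1.symm.trans e2)
  exact ⟨φ, fun x => (hφ₁ W₁ le_rfl x).trans (hf₁ x), fun x => (hφ₂ W₂ le_rfl x).trans (hf₂ x)⟩

include hW₁ hD₁ hV₁ in
/-- A morphism out of a quasi-coherent module which induces `u₁` over `W₁` induces over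
`W₁₂ = j₁(D(s₁))` the unique linear map compatible with `u₁`. -/
theorem app_eq_of_charts {M N : X.Modules} [M.IsQuasicoherent] (φ : M ⟶ N)
    (u₁ : Γ(M, W₁) →+ Γ(N, W₁)) (u₁₂ : Γ(M, W₁₂) →+ Γ(N, W₁₂))
    (lin₁₂ : ∀ (r : Γ(X, W₁₂)) (x : Γ(M, W₁₂)), u₁₂ (r • x) = r • u₁₂ x)
    (c₁ : ∀ x : Γ(M, W₁), u₁₂ (res M hle₁ x) = res N hle₁ (u₁ x))
    (h₁ : ∀ x : Γ(M, W₁), φ.app W₁ x = u₁ x) (x : Γ(M, W₁₂)) :
    φ.app W₁₂ x = u₁₂ x := by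
  have h : (φ.app W₁₂).hom = u₁₂ := by
    refine eq_of_eq_on_res j₁ hW₁ s₁ D₁ hD₁ hV₁ hle₁ _ _
      (fun r x => app_smul' φ _ r x) lin₁₂ ?_
    intro y
    change φ.app W₁₂ (res M hle₁ y) = _
    rw [app_res, h₁, c₁]
  exact congrArg (fun v : Γ(M, W₁₂) →+ Γ(N, W₁₂) => v x) h

include hW₁ hW₂ hW₁₂ hcov hinf hD₁ hV₁ hD₂ hV₂ in
/-- **(UP)**, chart form: morphisms `M ⟶ N` out of a quasi-coherent module `M` are the same as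
compatible triples of `𝒪`-linear maps on the sections over `W₁`, `W₂`, `W₁₂`. -/
theorem existsUnique_hom_of_charts (M N : X.Modules) [M.IsQuasicoherent]
    (u₁ : Γ(M, W₁) →+ Γ(N, W₁)) (u₂ : Γ(M, W₂) →+ Γ(N, W₂)) (u₁₂ : Γ(M, W₁₂) →+ Γ(N, W₁₂))
    (lin₁ : ∀ (r : Γ(X, W₁)) (x : Γ(M, W₁)), u₁ (r • x) = r • u₁ x)
    (lin₂ : ∀ (r : Γ(X, W₂)) (x : Γ(M, W₂)), u₂ (r • x) = r • u₂ x)
    (lin₁₂ : ∀ (r : Γ(X, W₁₂)) (x : Γ(M, W₁₂)), u₁₂ (r • x) = r • u₁₂ x)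
    (c₁ : ∀ x : Γ(M, W₁), u₁₂ (res M hle₁ x) = res N hle₁ (u₁ x))
    (c₂ : ∀ x : Γ(M, W₂), u₁₂ (res M hle₂ x) = res N hle₂ (u₂ x)) :
    ∃! φ : M ⟶ N, (∀ x : Γ(M, W₁), φ.app W₁ x = u₁ x) ∧ (∀ x : Γ(M, W₂), φ.app W₂ x = u₂ x) := by
  obtain ⟨φ, h₁, h₂⟩ := exists_hom_of_charts j₁ j₂ j₁₂ hW₁ hW₂ hW₁₂ hcov hle₁ hle₂ hinf
    s₁ D₁ hD₁ hV₁ s₂ D₂ hD₂ hV₂ M N u₁ u₂ u₁₂ lin₁ lin₂ lin₁₂ c₁ c₂
  refine ⟨φ, ⟨h₁, h₂⟩, ?_⟩
  rintro φ' ⟨h₁', h₂'⟩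
  exact hom_ext_of_charts j₁ j₂ hW₁ hW₂ hcov φ' φ (fun x => (h₁' x).trans (h₁ x).symm)
    (fun x => (h₂' x).trans (h₂ x).symm)

include hW₁ hW₂ hW₁₂ hcov hinf hD₁ hV₁ hD₂ hV₂ in
/-- **(ISO)**, chart form: a compatible triple of `𝒪`-linear additive equivalences between the
sections over `W₁`, `W₂`, `W₁₂` of two quasi-coherent modules comes from an isomorphism. -/
theorem exists_iso_of_charts (M N : X.Modules) [M.IsQuasicoherent] [N.IsQuasicoherent]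
    (e₁ : Γ(M, W₁) ≃+ Γ(N, W₁)) (e₂ : Γ(M, W₂) ≃+ Γ(N, W₂)) (e₁₂ : Γ(M, W₁₂) ≃+ Γ(N, W₁₂))
    (lin₁ : ∀ (r : Γ(X, W₁)) (x : Γ(M, W₁)), e₁ (r • x) = r • e₁ x)
    (lin₂ : ∀ (r : Γ(X, W₂)) (x : Γ(M, W₂)), e₂ (r • x) = r • e₂ x)
    (lin₁₂ : ∀ (r : Γ(X, W₁₂)) (x : Γ(M, W₁₂)), e₁₂ (r • x) = r • e₁₂ x)
    (c₁ : ∀ x : Γ(M, W₁), e₁₂ (res M hle₁ x) = res N hle₁ (e₁ x))
    (c₂ : ∀ x : Γ(M, W₂), e₁₂ (res M hle₂ x) = res N hle₂ (e₂ x)) :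
    ∃ φ : M ≅ N, (∀ x : Γ(M, W₁), φ.hom.app W₁ x = e₁ x) ∧
      (∀ x : Γ(M, W₂), φ.hom.app W₂ x = e₂ x) ∧
      (∀ x : Γ(M, W₁₂), φ.hom.app W₁₂ x = e₁₂ x) := by
  obtain ⟨φ, h₁, h₂⟩ := exists_hom_of_charts j₁ j₂ j₁₂ hW₁ hW₂ hW₁₂ hcov hle₁ hle₂ hinf
    s₁ D₁ hD₁ hV₁ s₂ D₂ hD₂ hV₂ M N
    e₁.toAddMonoidHom e₂.toAddMonoidHom e₁₂.toAddMonoidHom lin₁ lin₂ lin₁₂ c₁ c₂
  obtain ⟨ψ, k₁, k₂⟩ := exists_hom_of_charts j₁ j₂ j₁₂ hW₁ hW₂ hW₁₂ hcov hle₁ hle₂ hinf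
    s₁ D₁ hD₁ hV₁ s₂ D₂ hD₂ hV₂ N M
    e₁.symm.toAddMonoidHom e₂.symm.toAddMonoidHom e₁₂.symm.toAddMonoidHom
    (fun r y => by
      apply e₁.injective
      change e₁ (e₁.symm (r • y)) = e₁ (r • e₁.symm y)
      rw [lin₁, AddEquiv.apply_symm_apply, AddEquiv.apply_symm_apply])
    (fun r y => by
      apply e₂.injective
      change e₂ (e₂.symm (r • y)) = e₂ (r • e₂.symm y)
      rw [lin₂, AddEquiv.apply_symm_apply, AddEquiv.apply_symm_apply])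
    (fun r y => by
      apply e₁₂.injective
      change e₁₂ (e₁₂.symm (r • y)) = e₁₂ (r • e₁₂.symm y)
      rw [lin₁₂, AddEquiv.apply_symm_apply, AddEquiv.apply_symm_apply])
    (fun y => by
      apply e₁₂.injective
      change e₁₂ (e₁₂.symm (res N hle₁ y)) = e₁₂ (res M hle₁ (e₁.symm y))
      rw [c₁, AddEquiv.apply_symm_apply, AddEquiv.apply_symm_apply])
    (fun y => by
      apply e₁₂.injective
      change e₁₂ (e₁₂.symm (res N hle₂ y)) = e₁₂ (res M hle₂ (e₂.symm y))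
      rw [c₂, AddEquiv.apply_symm_apply, AddEquiv.apply_symm_apply])
  have hφψ : φ ≫ ψ = 𝟙 M := by
    apply hom_ext_of_charts j₁ j₂ hW₁ hW₂ hcov
    · intro x
      change ψ.app W₁ (φ.app W₁ x) = x
      rw [h₁, k₁]
      exact e₁.symm_apply_apply x
    · intro x
      change ψ.app W₂ (φ.app W₂ x) = x
      rw [h₂, k₂]
      exact e₂.symm_apply_apply x
  have hψφ : ψ ≫ φ = 𝟙 N := by
    apply hom_ext_of_charts j₁ j₂ hW₁ hW₂ hcov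
    · intro y
      change φ.app W₁ (ψ.app W₁ y) = y
      rw [k₁, h₁]
      exact e₁.apply_symm_apply y
    · intro y
      change φ.app W₂ (ψ.app W₂ y) = y
      rw [k₂, h₂]
      exact e₂.apply_symm_apply y
  exact ⟨⟨φ, ψ, hφψ, hψφ⟩, h₁, h₂, fun x =>
    app_eq_of_charts j₁ hW₁ hle₁ s₁ D₁ hD₁ hV₁ φ e₁.toAddMonoidHom e₁₂.toAddMonoidHom
      lin₁₂ c₁ h₁ x⟩

end charts

/-! ### Opens form: `W₁`, `W₂` affine opens covering `X` with `W₁ ⊓ W₂ = D(s₁) = D(s₂)`. -/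

section twoChart

variable {W₁ W₂ : X.Opens} (a₁ : IsAffineOpen W₁) (a₂ : IsAffineOpen W₂)
  (hcov : W₁ ⊔ W₂ = ⊤) (s₁ : Γ(X, W₁)) (hs₁ : W₁ ⊓ W₂ = X.basicOpen s₁)
  (s₂ : Γ(X, W₂)) (hs₂ : W₁ ⊓ W₂ = X.basicOpen s₂)

include a₁ a₂ hcov in
/-- A morphism out of a quasi-coherent module on a scheme covered by two affine opens is
determined by its action on the sections over these two opens. -/
theorem hom_ext_of_sections {M N : X.Modules} [M.IsQuasicoherent] (φ φ' : M ⟶ N)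
    (h₁ : ∀ x : Γ(M, W₁), φ.app W₁ x = φ'.app W₁ x)
    (h₂ : ∀ x : Γ(M, W₂), φ.app W₂ x = φ'.app W₂ x) : φ = φ' :=
  hom_ext_of_charts a₁.fromSpec a₂.fromSpec a₁.opensRange_fromSpec a₂.opensRange_fromSpec hcov
    φ φ' h₁ h₂

include a₁ hs₁ in
theorem isAffineOpen_inf_of_basicOpen : IsAffineOpen (W₁ ⊓ W₂) := by
  rw [hs₁]
  exact a₁.basicOpen s₁

include a₁ hs₁ in
/-- A morphism out of a quasi-coherent module which induces `u₁` over `W₁` induces over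
`W₁ ⊓ W₂ = D(s₁)` the unique linear map compatible with `u₁`. -/
theorem app_inf_eq_of_sections {M N : X.Modules} [M.IsQuasicoherent] (φ : M ⟶ N)
    (u₁ : Γ(M, W₁) →+ Γ(N, W₁)) (u₁₂ : Γ(M, W₁ ⊓ W₂) →+ Γ(N, W₁ ⊓ W₂))
    (lin₁₂ : ∀ (r : Γ(X, W₁ ⊓ W₂)) (x : Γ(M, W₁ ⊓ W₂)), u₁₂ (r • x) = r • u₁₂ x)
    (c₁ : ∀ x : Γ(M, W₁), u₁₂ (res M inf_le_left x) = res N inf_le_left (u₁ x))
    (h₁ : ∀ x : Γ(M, W₁), φ.app W₁ x = u₁ x) (x : Γ(M, W₁ ⊓ W₂)) :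
    φ.app (W₁ ⊓ W₂) x = u₁₂ x :=
  app_eq_of_charts a₁.fromSpec a₁.opensRange_fromSpec inf_le_left s₁
    (PrimeSpectrum.basicOpen s₁) rfl ((a₁.fromSpec_image_basicOpen s₁).trans hs₁.symm)
    φ u₁ u₁₂ lin₁₂ c₁ h₁ x

include a₁ a₂ hcov hs₁ hs₂ in
/-- **(UP)** On a scheme covered by two affine opens `W₁`, `W₂` with `W₁ ⊓ W₂` principal in
both, morphisms `M ⟶ N` out of a quasi-coherent module `M` are the same as compatible triples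
of `𝒪`-linear maps on the sections over `W₁`, `W₂`, `W₁ ⊓ W₂`. -/
theorem existsUnique_hom_of_sections (M N : X.Modules) [M.IsQuasicoherent]
    (u₁ : Γ(M, W₁) →+ Γ(N, W₁)) (u₂ : Γ(M, W₂) →+ Γ(N, W₂))
    (u₁₂ : Γ(M, W₁ ⊓ W₂) →+ Γ(N, W₁ ⊓ W₂))
    (lin₁ : ∀ (r : Γ(X, W₁)) (x : Γ(M, W₁)), u₁ (r • x) = r • u₁ x)
    (lin₂ : ∀ (r : Γ(X, W₂)) (x : Γ(M, W₂)), u₂ (r • x) = r • u₂ x)
    (lin₁₂ : ∀ (r : Γ(X, W₁ ⊓ W₂)) (x : Γ(M, W₁ ⊓ W₂)), u₁₂ (r • x) = r • u₁₂ x)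
    (c₁ : ∀ x : Γ(M, W₁), u₁₂ (res M inf_le_left x) = res N inf_le_left (u₁ x))
    (c₂ : ∀ x : Γ(M, W₂), u₁₂ (res M inf_le_right x) = res N inf_le_right (u₂ x)) :
    ∃! φ : M ⟶ N, (∀ x : Γ(M, W₁), φ.app W₁ x = u₁ x) ∧ (∀ x : Γ(M, W₂), φ.app W₂ x = u₂ x) :=
  existsUnique_hom_of_charts a₁.fromSpec a₂.fromSpec
    (isAffineOpen_inf_of_basicOpen a₁ s₁ hs₁).fromSpec
    a₁.opensRange_fromSpec a₂.opensRange_fromSpec
    (isAffineOpen_inf_of_basicOpen a₁ s₁ hs₁).opensRange_fromSpec hcov inf_le_left inf_le_right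
    le_rfl s₁ (PrimeSpectrum.basicOpen s₁) rfl ((a₁.fromSpec_image_basicOpen s₁).trans hs₁.symm)
    s₂ (PrimeSpectrum.basicOpen s₂) rfl ((a₂.fromSpec_image_basicOpen s₂).trans hs₂.symm)
    M N u₁ u₂ u₁₂ lin₁ lin₂ lin₁₂ c₁ c₂

include a₁ a₂ hcov hs₁ hs₂ in
/-- **(ISO)** A compatible triple of `𝒪`-linear additive equivalences between the sections over
`W₁`, `W₂`, `W₁ ⊓ W₂` of two quasi-coherent modules comes from an isomorphism. -/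
theorem exists_iso_of_sections (M N : X.Modules) [M.IsQuasicoherent] [N.IsQuasicoherent]
    (e₁ : Γ(M, W₁) ≃+ Γ(N, W₁)) (e₂ : Γ(M, W₂) ≃+ Γ(N, W₂))
    (e₁₂ : Γ(M, W₁ ⊓ W₂) ≃+ Γ(N, W₁ ⊓ W₂))
    (lin₁ : ∀ (r : Γ(X, W₁)) (x : Γ(M, W₁)), e₁ (r • x) = r • e₁ x)
    (lin₂ : ∀ (r : Γ(X, W₂)) (x : Γ(M, W₂)), e₂ (r • x) = r • e₂ x)
    (lin₁₂ : ∀ (r : Γ(X, W₁ ⊓ W₂)) (x : Γ(M, W₁ ⊓ W₂)), e₁₂ (r • x) = r • e₁₂ x)
    (c₁ : ∀ x : Γ(M, W₁), e₁₂ (res M inf_le_left x) = res N inf_le_left (e₁ x))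
    (c₂ : ∀ x : Γ(M, W₂), e₁₂ (res M inf_le_right x) = res N inf_le_right (e₂ x)) :
    ∃ φ : M ≅ N, (∀ x : Γ(M, W₁), φ.hom.app W₁ x = e₁ x) ∧
      (∀ x : Γ(M, W₂), φ.hom.app W₂ x = e₂ x) ∧
      (∀ x : Γ(M, W₁ ⊓ W₂), φ.hom.app (W₁ ⊓ W₂) x = e₁₂ x) :=
  exists_iso_of_charts a₁.fromSpec a₂.fromSpec
    (isAffineOpen_inf_of_basicOpen a₁ s₁ hs₁).fromSpec
    a₁.opensRange_fromSpec a₂.opensRange_fromSpec
    (isAffineOpen_inf_of_basicOpen a₁ s₁ hs₁).opensRange_fromSpec hcov inf_le_left inf_le_right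
    le_rfl s₁ (PrimeSpectrum.basicOpen s₁) rfl ((a₁.fromSpec_image_basicOpen s₁).trans hs₁.symm)
    s₂ (PrimeSpectrum.basicOpen s₂) rfl ((a₂.fromSpec_image_basicOpen s₂).trans hs₂.symm)
    M N e₁ e₂ e₁₂ lin₁ lin₂ lin₁₂ c₁ c₂

end twoChart

end Fermat.Agent.S25.DICT.H7710

end
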