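import Fermat.Agent.S25.DICT.ToGlued
import Fermat.Agent.S25.DICT.H7710.TwoChartHom

/-!
# S25 DICT leaf P6 (plan of helper5590): `toGlued` reflects isomorphism classes

`nonempty_iso_of_toGlued_iso` : for a two-chart atlas `𝒜 : Atlas X 𝔹` (helper5771) and
quasi-coherent `M`, `M'` on `X`, an isomorphism of glued modules `𝒜.toGlued M ≅ 𝒜.toGlued M'`
comes from an isomorphism `M ≅ M'`.  (helper7710; on `TwoChartHom.lean`.)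
-/

set_option autoImplicit false

universe u

open CategoryTheory AlgebraicGeometry TopologicalSpace Opposite

noncomputable section

namespace Fermat.Agent.S25.DICT.H7710

open Fermat.Agent.S25 Fermat.Agent.S25.DICT

variable {R : Type u} [CommRing R] {𝔹 : TwoChart R} {X : Scheme.{u}} (𝒜 : Atlas X 𝔹)

theorem atlas_cover : 𝒜.φ₁ ''ᵁ ⊤ ⊔ 𝒜.φ₂ ''ᵁ ⊤ = ⊤ := by
  apply Opens.ext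
  have h := 𝒜.cover
  simpa using h

theorem atlas_inf_le : 𝒜.φ₁ ''ᵁ ⊤ ⊓ 𝒜.φ₂ ''ᵁ ⊤ ≤ 𝒜.φ₁₂ ''ᵁ ⊤ := by
  intro x hx
  have h := 𝒜.inter
  have hx' : x ∈ Set.range 𝒜.φ₁ ∩ Set.range 𝒜.φ₂ := by
    obtain ⟨⟨y, -, hy⟩, ⟨z, -, hz⟩⟩ := hx
    exact ⟨⟨y, hy⟩, ⟨z, hz⟩⟩
  rw [h] at hx'
  obtain ⟨w, hw⟩ := hx'
  exact ⟨w, trivial, hw⟩

/-- **P6**: `toGlued` reflects isomorphism classes; the isomorphism induces the given one on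
the chart modules. -/
theorem exists_iso_of_toGlued_iso (M M' : X.Modules) [M.IsQuasicoherent] [M'.IsQuasicoherent]
    (e : (𝒜.toGlued M).Iso (𝒜.toGlued M')) :
    ∃ φ : M ≅ M', (∀ x : (𝒜.toGlued M).N₁, φ.hom.app (𝒜.φ₁ ''ᵁ ⊤) x = e.e₁ x) ∧
      (∀ x : (𝒜.toGlued M).N₂, φ.hom.app (𝒜.φ₂ ''ᵁ ⊤) x = e.e₂ x) ∧
      (∀ x : (𝒜.toGlued M).N₁₂, φ.hom.app (𝒜.φ₁₂ ''ᵁ ⊤) x = e.e₁₂ x) := by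
  have hle₁ : 𝒜.φ₁₂ ''ᵁ ⊤ ≤ 𝒜.φ₁ ''ᵁ ⊤ :=
    image_le_of_comp 𝒜.φ₁ (ρ₁ 𝔹) 𝒜.φ₁₂ 𝒜.φ₁₂_eq₁ ⊤ ⊤ le_top
  have hle₂ : 𝒜.φ₁₂ ''ᵁ ⊤ ≤ 𝒜.φ₂ ''ᵁ ⊤ :=
    image_le_of_comp 𝒜.φ₂ (ρ₂ 𝔹) 𝒜.φ₁₂ 𝒜.φ₁₂_eq₂ ⊤ ⊤ le_top
  let e₁ : Γ(M, 𝒜.φ₁ ''ᵁ ⊤) ≃+ Γ(M', 𝒜.φ₁ ''ᵁ ⊤) := e.e₁.toAddEquiv
  let e₂ : Γ(M, 𝒜.φ₂ ''ᵁ ⊤) ≃+ Γ(M', 𝒜.φ₂ ''ᵁ ⊤) := e.e₂.toAddEquiv
  let e₁₂ : Γ(M, 𝒜.φ₁₂ ''ᵁ ⊤) ≃+ Γ(M', 𝒜.φ₁₂ ''ᵁ ⊤) := e.e₁₂.toAddEquiv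
  exact exists_iso_of_charts 𝒜.φ₁ 𝒜.φ₂ 𝒜.φ₁₂
    (Scheme.Hom.image_top_eq_opensRange 𝒜.φ₁).symm
    (Scheme.Hom.image_top_eq_opensRange 𝒜.φ₂).symm
    (Scheme.Hom.image_top_eq_opensRange 𝒜.φ₁₂).symm
    (atlas_cover 𝒜) hle₁ hle₂ (atlas_inf_le 𝒜)
    𝔹.f (PrimeSpectrum.basicOpen 𝔹.f) rfl 𝒜.φ₁₂_image_top₁.symm
    𝔹.g (PrimeSpectrum.basicOpen 𝔹.g) rfl 𝒜.φ₁₂_image_top₂.symm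
    M M' e₁ e₂ e₁₂
    (linear_of_chart_linear 𝒜.φ₁ e₁.toAddMonoidHom (fun r x => e.e₁.map_smul r x))
    (linear_of_chart_linear 𝒜.φ₂ e₂.toAddMonoidHom (fun r x => e.e₂.map_smul r x))
    (linear_of_chart_linear 𝒜.φ₁₂ e₁₂.toAddMonoidHom (fun r x => e.e₁₂.map_smul r x))
    (fun x => e.comm₁ x) (fun x => e.comm₂ x)

/-- **P6** (exact statement of helper5590's `DICT/Plan.lean`). -/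
theorem nonempty_iso_of_toGlued_iso (M M' : X.Modules) [M.IsQuasicoherent] [M'.IsQuasicoherent]
    (h : Nonempty ((𝒜.toGlued M).Iso (𝒜.toGlued M'))) : Nonempty (M ≅ M') := by
  obtain ⟨e⟩ := h
  obtain ⟨φ, -⟩ := exists_iso_of_toGlued_iso 𝒜 M M' e
  exact ⟨φ⟩

end Fermat.Agent.S25.DICT.H7710

end
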