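import Fermat.Agent.S25.DICT.H7710.ModGlue

/-!
# Sections of a module restricted along an arbitrary open immersion

`secMapJ j f V h` : the action on sections over `V ≤ j.opensRange` (an open of `X`) of a morphism
`f : M.restrict j ⟶ N.restrict j`, for an open immersion `j : Y ⟶ X`; `mkOfSecJ` builds such a
morphism from sections-level data.  (Generalisation of the `secMap` API from `U.ι` to any open
immersion; helper7710.)
-/

set_option autoImplicit false

universe u

open CategoryTheory AlgebraicGeometry TopologicalSpace Opposite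

noncomputable section

namespace Fermat.Agent.S25.DICT.H7710

variable {X Y : Scheme.{u}} (j : Y ⟶ X) [IsOpenImmersion j]

theorem image_preimage_of_le {V : X.Opens} (h : V ≤ j.opensRange) : j ''ᵁ (j ⁻¹ᵁ V) = V := by
  rw [Scheme.Hom.image_preimage_eq_opensRange_inf]
  exact inf_eq_right.mpr h

variable {M N K : X.Modules}

/-- The (definitional) identification of the sections of a restricted module. -/
def toRJ (M : X.Modules) (W : Y.Opens) : Γ(M, j ''ᵁ W) ≃+ Γ(M.restrict j, W) :=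
  AddEquiv.refl _

theorem toRJ_res (M : X.Modules) {W W' : Y.Opens} (h : W' ≤ W) (y : Γ(M, j ''ᵁ W)) :
    res (M.restrict j) h (toRJ j M W y) =
      toRJ j M W' (res M (Scheme.Hom.image_mono j h) y) := rfl

theorem toRJ_symm_res (M : X.Modules) {W W' : Y.Opens} (h : W' ≤ W)
    (t : Γ(M.restrict j, W)) :
    (toRJ j M W').symm (res (M.restrict j) h t) =
      res M (Scheme.Hom.image_mono j h) ((toRJ j M W).symm t) := rfl

theorem toRJ_smul (M : X.Modules) (W : Y.Opens) (r : Γ(Y, W)) (y : Γ(M, j ''ᵁ W)) :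
    r • toRJ j M W y = toRJ j M W ((j.appIso W).inv r • y) := rfl

theorem toRJ_symm_smul (M : X.Modules) (W : Y.Opens) (r : Γ(Y, W))
    (t : Γ(M.restrict j, W)) :
    (toRJ j M W).symm (r • t) = (j.appIso W).inv r • (toRJ j M W).symm t := rfl

/-- The action of a morphism `M|_Y ⟶ N|_Y` on sections over an open `V ≤ j.opensRange`. -/
def secMapJ (f : M.restrict j ⟶ N.restrict j) (V : X.Opens) (h : V ≤ j.opensRange) :
    Γ(M, V) →+ Γ(N, V) :=
  (res N (image_preimage_of_le j h).ge).comp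
    ((toRJ j N (j ⁻¹ᵁ V)).symm.toAddMonoidHom.comp
      ((f.app (j ⁻¹ᵁ V)).hom.comp
        ((toRJ j M (j ⁻¹ᵁ V)).toAddMonoidHom.comp (res M (image_preimage_of_le j h).le))))

theorem secMapJ_apply (f : M.restrict j ⟶ N.restrict j) (V : X.Opens) (h : V ≤ j.opensRange)
    (x : Γ(M, V)) :
    secMapJ j f V h x = res N (image_preimage_of_le j h).ge
      ((toRJ j N (j ⁻¹ᵁ V)).symm
        (f.app (j ⁻¹ᵁ V) (toRJ j M (j ⁻¹ᵁ V) (res M (image_preimage_of_le j h).le x)))) :=
  rfl

theorem app_eq_secMapJ (f : M.restrict j ⟶ N.restrict j) (W : Y.Opens)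
    (y : Γ(M, j ''ᵁ W)) :
    (toRJ j N W).symm (f.app W (toRJ j M W y)) =
      secMapJ j f (j ''ᵁ W) (Scheme.Hom.image_le_opensRange j W) y := by
  have hW : j ⁻¹ᵁ (j ''ᵁ W) = W := Scheme.Hom.preimage_image_eq j W
  rw [secMapJ_apply]
  have h1 := app_res f hW.ge
    (toRJ j M _ (res M (image_preimage_of_le j (Scheme.Hom.image_le_opensRange j W)).le y))
  rw [toRJ_res, res_res, res_self] at h1
  rw [h1, toRJ_symm_res]

theorem secMapJ_res (f : M.restrict j ⟶ N.restrict j) {V W : X.Opens} (h : V ≤ j.opensRange)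
    (hW : W ≤ V) (x : Γ(M, V)) :
    secMapJ j f W (hW.trans h) (res M hW x) = res N hW (secMapJ j f V h x) := by
  rw [secMapJ_apply, secMapJ_apply, res_res, res_res]
  have hle : j ⁻¹ᵁ W ≤ j ⁻¹ᵁ V := fun _ hx => hW hx
  have h1 := app_res f hle (toRJ j M _ (res M (image_preimage_of_le j h).le x))
  rw [toRJ_res, res_res] at h1
  rw [h1, toRJ_symm_res, res_res]

theorem secMapJ_smul (f : M.restrict j ⟶ N.restrict j) (V : X.Opens) (h : V ≤ j.opensRange)
    (r : Γ(X, V)) (x : Γ(M, V)) : secMapJ j f V h (r • x) = r • secMapJ j f V h x := by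
  rw [secMapJ_apply, secMapJ_apply, res_smul]
  have h2 : (j.appIso (j ⁻¹ᵁ V)).inv ((j.appIso (j ⁻¹ᵁ V)).hom
      (resO X (image_preimage_of_le j h).le r)) = resO X (image_preimage_of_le j h).le r := by
    rw [← CommRingCat.comp_apply, Iso.hom_inv_id]
    rfl
  have h1 := app_smul' f (j ⁻¹ᵁ V) ((j.appIso (j ⁻¹ᵁ V)).hom
      (resO X (image_preimage_of_le j h).le r))
      (toRJ j M _ (res M (image_preimage_of_le j h).le x))
  rw [toRJ_smul, h2] at h1
  rw [h1, toRJ_symm_smul, h2, res_smul, resO_resO, resO_self]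

theorem secMapJ_id (V : X.Opens) (h : V ≤ j.opensRange) (x : Γ(M, V)) :
    secMapJ j (𝟙 (M.restrict j)) V h x = x := by
  rw [secMapJ_apply]
  change res M _ (res M _ x) = x
  rw [res_res, res_self]

theorem secMapJ_comp (f : M.restrict j ⟶ N.restrict j) (g : N.restrict j ⟶ K.restrict j)
    (V : X.Opens) (h : V ≤ j.opensRange) (x : Γ(M, V)) :
    secMapJ j (f ≫ g) V h x = secMapJ j g V h (secMapJ j f V h x) := by
  rw [secMapJ_apply, secMapJ_apply, secMapJ_apply, res_res, res_self]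
  rfl

theorem hom_ext_secMapJ {f g : M.restrict j ⟶ N.restrict j}
    (h : ∀ (V : X.Opens) (hV : V ≤ j.opensRange) (x : Γ(M, V)),
      secMapJ j f V hV x = secMapJ j g V hV x) :
    f = g := by
  apply Scheme.Modules.hom_ext
  intro W
  apply AddCommGrpCat.hom_ext
  apply AddMonoidHom.ext
  intro y
  have h1 := app_eq_secMapJ j f W ((toRJ j M W).symm y)
  have h2 := app_eq_secMapJ j g W ((toRJ j M W).symm y)
  rw [h _ _ _, ← h2] at h1
  exact (toRJ j N W).symm.injective h1

theorem secMapJ_restrictFunctor_map (g : M ⟶ N) (V : X.Opens) (h : V ≤ j.opensRange)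
    (x : Γ(M, V)) :
    secMapJ j ((Scheme.Modules.restrictFunctor j).map g) V h x = g.app V x := by
  rw [secMapJ_apply]
  change res N _ (g.app _ (res M _ x)) = _
  rw [app_res, res_res, res_self]

theorem mkOfSecJ_aux_res (g : ∀ V : X.Opens, V ≤ j.opensRange → (Γ(M, V) →+ Γ(N, V)))
    (g_res : ∀ (V W : X.Opens) (h : V ≤ j.opensRange) (hW : W ≤ V) (x : Γ(M, V)),
      g W (hW.trans h) (res M hW x) = res N hW (g V h x))
    {W W' : Y.Opens} (h : W' ≤ W) (t : Γ(M.restrict j, W)) :
    toRJ j N W' (g (j ''ᵁ W') (Scheme.Hom.image_le_opensRange j _)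
        ((toRJ j M W').symm (res (M.restrict j) h t))) =
      res (N.restrict j) h (toRJ j N W (g (j ''ᵁ W) (Scheme.Hom.image_le_opensRange j _)
        ((toRJ j M W).symm t))) := by
  rw [toRJ_symm_res, g_res _ _ (Scheme.Hom.image_le_opensRange j W), toRJ_res]

theorem mkOfSecJ_aux_smul (g : ∀ V : X.Opens, V ≤ j.opensRange → (Γ(M, V) →+ Γ(N, V)))
    (g_smul : ∀ (V : X.Opens) (h : V ≤ j.opensRange) (r : Γ(X, V)) (x : Γ(M, V)),
      g V h (r • x) = r • g V h x)
    (W : Y.Opens) (r : Γ(Y, W)) (t : Γ(M.restrict j, W)) :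
    toRJ j N W (g (j ''ᵁ W) (Scheme.Hom.image_le_opensRange j _) ((toRJ j M W).symm (r • t))) =
      r • toRJ j N W (g (j ''ᵁ W) (Scheme.Hom.image_le_opensRange j _) ((toRJ j M W).symm t)) := by
  rw [toRJ_symm_smul, g_smul, toRJ_smul]

/-- Build a morphism of restricted modules from maps on sections over the opens
`V ≤ j.opensRange`. -/
def mkOfSecJ (g : ∀ V : X.Opens, V ≤ j.opensRange → (Γ(M, V) →+ Γ(N, V)))
    (g_res : ∀ (V W : X.Opens) (h : V ≤ j.opensRange) (hW : W ≤ V) (x : Γ(M, V)),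
      g W (hW.trans h) (res M hW x) = res N hW (g V h x))
    (g_smul : ∀ (V : X.Opens) (h : V ≤ j.opensRange) (r : Γ(X, V)) (x : Γ(M, V)),
      g V h (r • x) = r • g V h x) :
    M.restrict j ⟶ N.restrict j :=
  ⟨PresheafOfModules.homMk
    { app := fun W => AddCommGrpCat.ofHom
        (((toRJ j N W.unop).toAddMonoidHom.comp
          (g (j ''ᵁ W.unop) (Scheme.Hom.image_le_opensRange j _))).comp
          (toRJ j M W.unop).symm.toAddMonoidHom)
      naturality := by
        intro W W' i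
        apply AddCommGrpCat.hom_ext
        apply AddMonoidHom.ext
        intro t
        exact mkOfSecJ_aux_res j g g_res (leOfHom i.unop) t }
    (by
      intro W r t
      exact mkOfSecJ_aux_smul j g g_smul W.unop r t)⟩

theorem mkOfSecJ_app (g : ∀ V : X.Opens, V ≤ j.opensRange → (Γ(M, V) →+ Γ(N, V)))
    (g_res : ∀ (V W : X.Opens) (h : V ≤ j.opensRange) (hW : W ≤ V) (x : Γ(M, V)),
      g W (hW.trans h) (res M hW x) = res N hW (g V h x))
    (g_smul : ∀ (V : X.Opens) (h : V ≤ j.opensRange) (r : Γ(X, V)) (x : Γ(M, V)),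
      g V h (r • x) = r • g V h x) (W : Y.Opens) (t : Γ(M.restrict j, W)) :
    (mkOfSecJ j g g_res g_smul).app W t =
      toRJ j N W (g (j ''ᵁ W) (Scheme.Hom.image_le_opensRange j _) ((toRJ j M W).symm t)) := rfl

theorem secMapJ_mkOfSecJ (g : ∀ V : X.Opens, V ≤ j.opensRange → (Γ(M, V) →+ Γ(N, V)))
    (g_res : ∀ (V W : X.Opens) (h : V ≤ j.opensRange) (hW : W ≤ V) (x : Γ(M, V)),
      g W (hW.trans h) (res M hW x) = res N hW (g V h x))
    (g_smul : ∀ (V : X.Opens) (h : V ≤ j.opensRange) (r : Γ(X, V)) (x : Γ(M, V)),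
      g V h (r • x) = r • g V h x) (V : X.Opens) (h : V ≤ j.opensRange) (x : Γ(M, V)) :
    secMapJ j (mkOfSecJ j g g_res g_smul) V h x = g V h x := by
  rw [secMapJ_apply, mkOfSecJ_app, AddEquiv.symm_apply_apply, AddEquiv.symm_apply_apply,
    g_res V _ h, res_res, res_self]

end Fermat.Agent.S25.DICT.H7710

end
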