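import Mathlib.AlgebraicGeometry.Modules.Tilde
import Fermat.Agent.S25.DICT.H7710.SecJ

/-!
# Morphisms out of a quasi-coherent module on an affine chart

For an open immersion `j : Spec R ⟶ X` and modules `M`, `N` on `X` with `M.restrict j`
quasi-coherent, morphisms `M.restrict j ⟶ N.restrict j` are the same as `𝒪`-linear maps
`Γ(M, W) → Γ(N, W)`, `W = j.opensRange` (`hom_ext_of_secMapJ`, `exists_hom_of_linear`); and
linear maps out of `Γ(M, j(D(s)))` are determined on the image of `Γ(M, W)`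
(`eq_of_eq_on_res`).  Mathlib-only (tilde-Gamma adjunction); helper7710.
-/

set_option autoImplicit false

universe u

open CategoryTheory AlgebraicGeometry TopologicalSpace Opposite

noncomputable section

namespace Fermat.Agent.S25.DICT.H7710

variable {R : CommRingCat.{u}}

theorem specΓ_map_apply {N N' : (Spec R).Modules} (f : N ⟶ N') (x : Γ(N, ⊤)) :
    (moduleSpecΓFunctor.map f).hom x = f.app ⊤ x := rfl

theorem isIso_counit_of_isQuasicoherent (N : (Spec R).Modules) [N.IsQuasicoherent] :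
    IsIso ((tilde.adjunction (R := R)).counit.app N) := by
  change IsIso N.fromTildeΓ
  infer_instance

/-- The global sections functor is faithful on morphisms out of a quasi-coherent module. -/
theorem spec_hom_ext_map {N N' : (Spec R).Modules} [N.IsQuasicoherent] (f g : N ⟶ N')
    (h : moduleSpecΓFunctor.map f = moduleSpecΓFunctor.map g) : f = g := by
  have := isIso_counit_of_isQuasicoherent N
  have h1 : (tilde.adjunction.homEquiv _ _) ((tilde.adjunction (R := R)).counit.app N ≫ f) =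
      (tilde.adjunction.homEquiv _ _) ((tilde.adjunction (R := R)).counit.app N ≫ g) := by
    rw [Adjunction.homEquiv_unit, Adjunction.homEquiv_unit, Functor.map_comp, Functor.map_comp, h]
  have h2 := (tilde.adjunction.homEquiv _ _).injective h1
  exact (cancel_epi _).mp h2

/-- The global sections functor is full on morphisms out of a quasi-coherent module. -/
theorem spec_exists_hom_map {N N' : (Spec R).Modules} [N.IsQuasicoherent]
    (u : moduleSpecΓFunctor.obj N ⟶ moduleSpecΓFunctor.obj N') :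
    ∃ f : N ⟶ N', moduleSpecΓFunctor.map f = u := by
  have := isIso_counit_of_isQuasicoherent N
  refine ⟨inv ((tilde.adjunction (R := R)).counit.app N) ≫
    (tilde.adjunction.homEquiv _ _).symm u, ?_⟩
  have h1 : (tilde.adjunction.homEquiv _ _) ((tilde.adjunction (R := R)).counit.app N ≫
      (inv ((tilde.adjunction (R := R)).counit.app N) ≫
        (tilde.adjunction.homEquiv _ _).symm u)) = u := by
    rw [IsIso.hom_inv_id_assoc, Equiv.apply_symm_apply]
  rw [Adjunction.homEquiv_unit, Functor.map_comp, ← Category.assoc,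
    Adjunction.right_triangle_components, Category.id_comp] at h1
  exact h1

theorem spec_hom_ext {N N' : (Spec R).Modules} [N.IsQuasicoherent] (f g : N ⟶ N')
    (h : ∀ x : Γ(N, ⊤), f.app ⊤ x = g.app ⊤ x) : f = g := by
  apply spec_hom_ext_map
  apply ModuleCat.hom_ext
  apply LinearMap.ext
  intro x
  exact h x

theorem spec_exists_hom {N N' : (Spec R).Modules} [N.IsQuasicoherent]
    (u : Γ(N, ⊤) →ₗ[R] Γ(N', ⊤)) : ∃ f : N ⟶ N', ∀ x, f.app ⊤ x = u x := by
  let u' : moduleSpecΓFunctor.obj N ⟶ moduleSpecΓFunctor.obj N' :=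
    (ModuleCat.ofHom u : ModuleCat.of R Γ(N, ⊤) ⟶ ModuleCat.of R Γ(N', ⊤))
  obtain ⟨f, hf⟩ := spec_exists_hom_map (N := N) (N' := N') u'
  refine ⟨f, fun x => ?_⟩
  rw [← specΓ_map_apply, hf]
  rfl

section chart

variable {X : Scheme.{u}} (j : Spec R ⟶ X) [IsOpenImmersion j] {M N : X.Modules}

theorem res_res_self (M : X.Modules) {V W : X.Opens} (h : W ≤ V) (h' : V ≤ W) (x : Γ(M, W)) :
    res M h (res M h' x) = x := by
  rw [res_res, res_self]

/-- Morphisms `M|_{Spec R} ⟶ N|_{Spec R}` out of a quasi-coherent module are determined by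
their action on sections over the image of the chart (top form). -/
theorem hom_ext_of_secMapJ_top [(M.restrict j).IsQuasicoherent]
    {f g : M.restrict j ⟶ N.restrict j}
    (h : ∀ x : Γ(M, j ''ᵁ ⊤), secMapJ j f (j ''ᵁ ⊤) (Scheme.Hom.image_le_opensRange j ⊤) x =
      secMapJ j g (j ''ᵁ ⊤) (Scheme.Hom.image_le_opensRange j ⊤) x) : f = g := by
  apply spec_hom_ext
  intro x
  have h1 := app_eq_secMapJ j f ⊤ ((toRJ j M ⊤).symm x)
  have h2 := app_eq_secMapJ j g ⊤ ((toRJ j M ⊤).symm x)
  rw [h, ← h2] at h1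
  exact (toRJ j N ⊤).symm.injective h1

/-- Morphisms `M|_{Spec R} ⟶ N|_{Spec R}` out of a quasi-coherent module are determined by
their action on sections over `W = j.opensRange`. -/
theorem hom_ext_of_secMapJ [(M.restrict j).IsQuasicoherent] {W : X.Opens}
    (hW : j.opensRange = W) {f g : M.restrict j ⟶ N.restrict j}
    (h : ∀ x : Γ(M, W), secMapJ j f W hW.ge x = secMapJ j g W hW.ge x) : f = g := by
  apply hom_ext_of_secMapJ_top
  intro x
  have e : j ''ᵁ ⊤ = W := (Scheme.Hom.image_top_eq_opensRange j).trans hW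
  have hx : x = res M e.le (res M e.ge x) := (res_res_self M e.le e.ge x).symm
  rw [hx]
  have h1 := secMapJ_res j f hW.ge e.le (res M e.ge x)
  have h2 := secMapJ_res j g hW.ge e.le (res M e.ge x)
  rw [h1, h2, h]

/-- A linear map on sections over the image of the chart extends to a morphism of the
restricted modules (top form). -/
theorem exists_hom_of_linear_top [(M.restrict j).IsQuasicoherent]
    (u : Γ(M, j ''ᵁ ⊤) →+ Γ(N, j ''ᵁ ⊤))
    (hu : ∀ (r : Γ(X, j ''ᵁ ⊤)) (x : Γ(M, j ''ᵁ ⊤)), u (r • x) = r • u x) :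
    ∃ f : M.restrict j ⟶ N.restrict j, ∀ x : Γ(M, j ''ᵁ ⊤),
      secMapJ j f (j ''ᵁ ⊤) (Scheme.Hom.image_le_opensRange j ⊤) x = u x := by
  let u' : Γ(M.restrict j, ⊤) →ₗ[R] Γ(N.restrict j, ⊤) :=
    { toFun := fun x => toRJ j N ⊤ (u ((toRJ j M ⊤).symm x))
      map_add' := fun x y => by
        change u (_ + _) = u _ + u _
        exact map_add u _ _
      map_smul' := fun r x => hu _ _ }
  obtain ⟨f, hf⟩ := spec_exists_hom (N := M.restrict j) (N' := N.restrict j) u'
  refine ⟨f, fun x => ?_⟩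
  rw [← app_eq_secMapJ j f ⊤ x, hf]
  rfl

/-- A linear map on sections over `W = j.opensRange` extends to a morphism of the restricted
modules. -/
theorem exists_hom_of_linear [(M.restrict j).IsQuasicoherent] {W : X.Opens}
    (hW : j.opensRange = W) (u : Γ(M, W) →+ Γ(N, W))
    (hu : ∀ (r : Γ(X, W)) (x : Γ(M, W)), u (r • x) = r • u x) :
    ∃ f : M.restrict j ⟶ N.restrict j, ∀ x : Γ(M, W), secMapJ j f W hW.ge x = u x := by
  have e : j ''ᵁ ⊤ = W := (Scheme.Hom.image_top_eq_opensRange j).trans hW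
  obtain ⟨f, hf⟩ := exists_hom_of_linear_top j (M := M) (N := N)
    ((res N e.le).comp (u.comp (res M e.ge))) (by
      intro r x
      change res N e.le (u (res M e.ge (r • x))) = r • res N e.le (u (res M e.ge x))
      rw [res_smul, hu, res_smul, resO_resO, resO_self])
  refine ⟨f, fun x => ?_⟩
  have h1 := secMapJ_res j f hW.ge e.le x
  rw [hf] at h1
  change res N e.le (u (res M e.ge (res M e.le x))) = _ at h1
  rw [res_res_self] at h1
  have h2 := congrArg (res N e.ge) h1
  rw [res_res_self, res_res_self] at h2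
  exact h2.symm

/-- Every scalar of `Γ(X, j(Spec R))` acts on the sections of a restricted module as an
element of `R`. -/
theorem exists_smul_eq_of_chart (a : Γ(X, j ''ᵁ ⊤)) :
    ∃ r : R, ∀ (M : X.Modules) (x : Γ(M.restrict j, ⊤)),
      r • x = toRJ j M ⊤ (a • (toRJ j M ⊤).symm x) := by
  refine ⟨(Scheme.ΓSpecIso R).hom ((j.appIso ⊤).hom a), fun M x => ?_⟩
  have key : (j.appIso ⊤).inv ((Spec R).presheaf.map (⊤ : (Spec R).Opens).leTop.op
      ((Scheme.ΓSpecIso R).inv ((Scheme.ΓSpecIso R).hom ((j.appIso ⊤).hom a)))) = a := by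
    have h1 : (⊤ : (Spec R).Opens).leTop = 𝟙 _ := Subsingleton.elim _ _
    rw [h1, op_id, CategoryTheory.Functor.map_id]
    simp
  rw [Scheme.Modules.smul_Spec_def]
  have h2 := toRJ_smul j M ⊤ ((Spec R).presheaf.map (⊤ : (Spec R).Opens).leTop.op
      ((Scheme.ΓSpecIso R).inv ((Scheme.ΓSpecIso R).hom ((j.appIso ⊤).hom a))))
      ((toRJ j M ⊤).symm x)
  rw [key] at h2
  exact h2

/-- An additive map on the sections over `j(Spec R)` which is `R`-linear is
`Γ(X, j(Spec R))`-linear. -/
theorem linear_of_chart_linear (u : Γ(M, j ''ᵁ ⊤) →+ Γ(N, j ''ᵁ ⊤))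
    (hu : ∀ (r : R) (x : Γ(M.restrict j, ⊤)),
      toRJ j N ⊤ (u ((toRJ j M ⊤).symm (r • x))) = r • toRJ j N ⊤ (u ((toRJ j M ⊤).symm x)))
    (a : Γ(X, j ''ᵁ ⊤)) (x : Γ(M, j ''ᵁ ⊤)) : u (a • x) = a • u x := by
  obtain ⟨r, hr⟩ := exists_smul_eq_of_chart j a
  have h1 := hu r (toRJ j M ⊤ x)
  rw [hr M, hr N] at h1
  exact h1

/-- Two `𝒪`-linear maps out of `Γ(M, V)`, `V = j(D(s))`, which agree on the restrictions of
the sections over the chart `W = j.opensRange`, are equal (`M` quasi-coherent on the chart). -/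
theorem eq_of_eq_on_res [(M.restrict j).IsQuasicoherent] {W V : X.Opens}
    (hW : j.opensRange = W) (s : R) (D : (Spec R).Opens) (hD : D = PrimeSpectrum.basicOpen s)
    (hV : j ''ᵁ D = V) (hVW : V ≤ W)
    (v v' : Γ(M, V) →+ Γ(N, V))
    (hv : ∀ (r : Γ(X, V)) (x : Γ(M, V)), v (r • x) = r • v x)
    (hv' : ∀ (r : Γ(X, V)) (x : Γ(M, V)), v' (r • x) = r • v' x)
    (h : ∀ x : Γ(M, W), v (res M hVW x) = v' (res M hVW x)) : v = v' := by
  subst hD
  have hloc := (isIso_fromTildeΓ_iff_isLocalizing (M.restrict j)).mp inferInstance s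
  have e : j ''ᵁ ⊤ = W := (Scheme.Hom.image_top_eq_opensRange j).trans hW
  set D : (Spec R).Opens := PrimeSpectrum.basicOpen s with hDdef
  have key : ∀ (w : Γ(M, V) →+ Γ(N, V)),
      (∀ (r : Γ(X, V)) (x : Γ(M, V)), w (r • x) = r • w x) →
      ∀ (a : Γ(X, j ''ᵁ D)) (t : Γ(M, j ''ᵁ D)),
      res N hV.le (w (res M hV.ge (a • t))) = a • res N hV.le (w (res M hV.ge t)) := by
    intro w hw a t
    rw [res_smul, hw, res_smul, resO_resO, resO_self]
  have keyR : ∀ (w : Γ(M, V) →+ Γ(N, V)),
      (∀ (r : Γ(X, V)) (x : Γ(M, V)), w (r • x) = r • w x) →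
      ∀ (r : R) (t : Γ(M.restrict j, D)),
      toRJ j N D (res N hV.le (w (res M hV.ge ((toRJ j M D).symm (r • t))))) =
      r • toRJ j N D (res N hV.le (w (res M hV.ge ((toRJ j M D).symm t)))) := by
    intro w hw r t
    exact key w hw _ _
  apply AddMonoidHom.ext
  intro y
  obtain ⟨⟨x, ⟨_, n, rfl⟩⟩, hx⟩ := hloc.surj (toRJ j M D (res M hV.le y))
  have hx' : (s ^ n) • toRJ j M D (res M hV.le y) =
      toRJ j M D (res M (Scheme.Hom.image_mono j le_top) ((toRJ j M ⊤).symm x)) := hx
  have hres : res M hV.ge ((toRJ j M D).symm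
        (toRJ j M D (res M (Scheme.Hom.image_mono j le_top) ((toRJ j M ⊤).symm x)))) =
      res M hVW (res M e.ge ((toRJ j M ⊤).symm x)) := by
    rw [AddEquiv.symm_apply_apply, res_res, res_res]
  have h1 := keyR v hv (s ^ n) (toRJ j M D (res M hV.le y))
  have h2 := keyR v' hv' (s ^ n) (toRJ j M D (res M hV.le y))
  rw [hx', hres, h] at h1
  rw [hx', hres] at h2
  rw [h1] at h2
  have hreg : IsSMulRegular Γ(N.restrict j, D) (s ^ n) :=
    (Scheme.Modules.isSMulRegular_of_le_basicOpen (M := N.restrict j) (U := D) (f := s)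
      (le_refl _)).pow n
  have h3 := hreg h2
  have h4 := (toRJ j N D).injective h3
  rw [AddEquiv.symm_apply_apply, res_res_self] at h4
  have h5 := congrArg (res N hV.ge) h4
  rw [res_res_self, res_res_self] at h5
  exact h5

end chart

end Fermat.Agent.S25.DICT.H7710

end
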