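import Fermat.Agent.S25.DICT.H7710.SecGlue

/-!
# Gluing sheaves of modules on a scheme along an open cover

* `secMap f V h` : the action on sections over `V ≤ U` (an open of `X`) of a morphism
  `f : M.restrict U.ι ⟶ N.restrict U.ι` between restricted modules;
* `mkOfSec`, `mkIsoOfSec` : morphisms / isomorphisms of restricted modules from sections-level data;
* `resHom` : restriction of such a morphism to a smaller open;
* `exists_glue` : gluing of modules along a family of opens, given transition isomorphisms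
  satisfying the cocycle condition;
* `exists_unique_hom_of_cover` : gluing of morphisms of modules along an open cover.
-/

set_option autoImplicit false

universe u

open CategoryTheory AlgebraicGeometry TopologicalSpace Opposite

noncomputable section

namespace Fermat.Agent.S25.DICT.H7710

variable {X : Scheme.{u}}

theorem ι_image_preimage_of_le {U V : X.Opens} (h : V ≤ U) : U.ι ''ᵁ (U.ι ⁻¹ᵁ V) = V := by
  rw [Scheme.Hom.image_preimage_eq_opensRange_inf, Scheme.Opens.opensRange_ι]
  exact inf_eq_right.mpr h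

/-- Naturality of a morphism of modules with respect to restriction of sections. -/
theorem app_res {Y : Scheme.{u}} {M N : Y.Modules} (g : M ⟶ N) {V W : Y.Opens} (h : W ≤ V)
    (x : Γ(M, V)) : g.app W (res M h x) = res N h (g.app V x) := by
  have := g.mapPresheaf.naturality (homOfLE h).op
  exact congr($this x)

theorem app_smul' {Y : Scheme.{u}} {M N : Y.Modules} (g : M ⟶ N) (V : Y.Opens) (r : Γ(Y, V))
    (x : Γ(M, V)) : g.app V (r • x) = r • g.app V x :=
  Scheme.Modules.Hom.app_smul g r x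

section secMap

variable {M N K : X.Modules} {U : X.Opens}

/-- The (definitional) identification of the sections of a restricted module. -/
def toR (M : X.Modules) (U : X.Opens) (W : U.toScheme.Opens) :
    Γ(M, U.ι ''ᵁ W) ≃+ Γ(M.restrict U.ι, W) :=
  AddEquiv.refl _

theorem toR_res (M : X.Modules) (U : X.Opens) {W W' : U.toScheme.Opens} (h : W' ≤ W)
    (y : Γ(M, U.ι ''ᵁ W)) :
    res (M.restrict U.ι) h (toR M U W y) =
      toR M U W' (res M (Scheme.Hom.image_mono U.ι h) y) := rfl

theorem toR_symm_res (M : X.Modules) (U : X.Opens) {W W' : U.toScheme.Opens} (h : W' ≤ W)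
    (t : Γ(M.restrict U.ι, W)) :
    (toR M U W').symm (res (M.restrict U.ι) h t) =
      res M (Scheme.Hom.image_mono U.ι h) ((toR M U W).symm t) := rfl

theorem toR_smul (M : X.Modules) (U : X.Opens) (W : U.toScheme.Opens) (r : Γ(U.toScheme, W))
    (y : Γ(M, U.ι ''ᵁ W)) :
    r • toR M U W y = toR M U W ((U.ι.appIso W).inv r • y) := rfl

theorem toR_symm_smul (M : X.Modules) (U : X.Opens) (W : U.toScheme.Opens)
    (r : Γ(U.toScheme, W)) (t : Γ(M.restrict U.ι, W)) :
    (toR M U W).symm (r • t) = (U.ι.appIso W).inv r • (toR M U W).symm t := rfl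

/-- The action of a morphism `M|_U ⟶ N|_U` on sections over an open `V ≤ U` of `X`. -/
def secMap (f : M.restrict U.ι ⟶ N.restrict U.ι) (V : X.Opens) (h : V ≤ U) :
    Γ(M, V) →+ Γ(N, V) :=
  (res N (ι_image_preimage_of_le h).ge).comp
    ((toR N U (U.ι ⁻¹ᵁ V)).symm.toAddMonoidHom.comp
      ((f.app (U.ι ⁻¹ᵁ V)).hom.comp
        ((toR M U (U.ι ⁻¹ᵁ V)).toAddMonoidHom.comp (res M (ι_image_preimage_of_le h).le))))

theorem secMap_apply (f : M.restrict U.ι ⟶ N.restrict U.ι) (V : X.Opens) (h : V ≤ U)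
    (x : Γ(M, V)) :
    secMap f V h x = res N (ι_image_preimage_of_le h).ge
      ((toR N U (U.ι ⁻¹ᵁ V)).symm
        (f.app (U.ι ⁻¹ᵁ V) (toR M U (U.ι ⁻¹ᵁ V) (res M (ι_image_preimage_of_le h).le x)))) :=
  rfl

theorem app_eq_secMap (f : M.restrict U.ι ⟶ N.restrict U.ι) (W : U.toScheme.Opens)
    (y : Γ(M, U.ι ''ᵁ W)) :
    (toR N U W).symm (f.app W (toR M U W y)) = secMap f (U.ι ''ᵁ W) (U.ι_image_le W) y := by
  have hW : U.ι ⁻¹ᵁ (U.ι ''ᵁ W) = W := Scheme.Hom.preimage_image_eq U.ι W
  rw [secMap_apply]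
  have h1 := app_res f hW.ge (toR M U _ (res M (ι_image_preimage_of_le (U.ι_image_le W)).le y))
  rw [toR_res, res_res, res_self] at h1
  rw [h1, toR_symm_res]

theorem secMap_res (f : M.restrict U.ι ⟶ N.restrict U.ι) {V W : X.Opens} (h : V ≤ U)
    (hW : W ≤ V) (x : Γ(M, V)) :
    secMap f W (hW.trans h) (res M hW x) = res N hW (secMap f V h x) := by
  rw [secMap_apply, secMap_apply, res_res, res_res]
  have hle : U.ι ⁻¹ᵁ W ≤ U.ι ⁻¹ᵁ V := fun _ hx => hW hx
  have h1 := app_res f hle (toR M U _ (res M (ι_image_preimage_of_le h).le x))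
  rw [toR_res, res_res] at h1
  rw [h1, toR_symm_res, res_res]

theorem secMap_smul (f : M.restrict U.ι ⟶ N.restrict U.ι) (V : X.Opens) (h : V ≤ U)
    (r : Γ(X, V)) (x : Γ(M, V)) : secMap f V h (r • x) = r • secMap f V h x := by
  rw [secMap_apply, secMap_apply, res_smul]
  have h2 : (U.ι.appIso (U.ι ⁻¹ᵁ V)).inv ((U.ι.appIso (U.ι ⁻¹ᵁ V)).hom
      (resO X (ι_image_preimage_of_le h).le r)) = resO X (ι_image_preimage_of_le h).le r := by
    rw [← CommRingCat.comp_apply, Iso.hom_inv_id]
    rfl
  have h1 := app_smul' f (U.ι ⁻¹ᵁ V) ((U.ι.appIso (U.ι ⁻¹ᵁ V)).hom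
      (resO X (ι_image_preimage_of_le h).le r))
      (toR M U _ (res M (ι_image_preimage_of_le h).le x))
  rw [toR_smul, h2] at h1
  rw [h1, toR_symm_smul, h2, res_smul, resO_resO, resO_self]

theorem secMap_id (V : X.Opens) (h : V ≤ U) (x : Γ(M, V)) :
    secMap (𝟙 (M.restrict U.ι)) V h x = x := by
  rw [secMap_apply]
  change res M _ (res M _ x) = x
  rw [res_res, res_self]

theorem secMap_comp (f : M.restrict U.ι ⟶ N.restrict U.ι) (g : N.restrict U.ι ⟶ K.restrict U.ι)
    (V : X.Opens) (h : V ≤ U) (x : Γ(M, V)) :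
    secMap (f ≫ g) V h x = secMap g V h (secMap f V h x) := by
  rw [secMap_apply, secMap_apply, secMap_apply, res_res, res_self]
  rfl

theorem hom_ext_secMap {f g : M.restrict U.ι ⟶ N.restrict U.ι}
    (h : ∀ (V : X.Opens) (hV : V ≤ U) (x : Γ(M, V)), secMap f V hV x = secMap g V hV x) :
    f = g := by
  apply Scheme.Modules.hom_ext
  intro W
  apply AddCommGrpCat.hom_ext
  apply AddMonoidHom.ext
  intro y
  have h1 := app_eq_secMap f W ((toR M U W).symm y)
  have h2 := app_eq_secMap g W ((toR M U W).symm y)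
  rw [h _ _ _, ← h2] at h1
  exact (toR N U W).symm.injective h1

theorem secMap_restrictFunctor_map (g : M ⟶ N) (V : X.Opens) (h : V ≤ U) (x : Γ(M, V)) :
    secMap ((Scheme.Modules.restrictFunctor U.ι).map g) V h x = g.app V x := by
  rw [secMap_apply]
  change res N _ (g.app _ (res M _ x)) = _
  rw [app_res, res_res, res_self]

theorem mkOfSec_aux_res (g : ∀ V : X.Opens, V ≤ U → (Γ(M, V) →+ Γ(N, V)))
    (g_res : ∀ (V W : X.Opens) (h : V ≤ U) (hW : W ≤ V) (x : Γ(M, V)),
      g W (hW.trans h) (res M hW x) = res N hW (g V h x))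
    {W W' : U.toScheme.Opens} (h : W' ≤ W) (t : Γ(M.restrict U.ι, W)) :
    toR N U W' (g (U.ι ''ᵁ W') (U.ι_image_le _)
        ((toR M U W').symm (res (M.restrict U.ι) h t))) =
      res (N.restrict U.ι) h (toR N U W (g (U.ι ''ᵁ W) (U.ι_image_le _) ((toR M U W).symm t))) := by
  rw [toR_symm_res, g_res _ _ (U.ι_image_le W), toR_res]

theorem mkOfSec_aux_smul (g : ∀ V : X.Opens, V ≤ U → (Γ(M, V) →+ Γ(N, V)))
    (g_smul : ∀ (V : X.Opens) (h : V ≤ U) (r : Γ(X, V)) (x : Γ(M, V)),
      g V h (r • x) = r • g V h x)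
    (W : U.toScheme.Opens) (r : Γ(U.toScheme, W)) (t : Γ(M.restrict U.ι, W)) :
    toR N U W (g (U.ι ''ᵁ W) (U.ι_image_le _) ((toR M U W).symm (r • t))) =
      r • toR N U W (g (U.ι ''ᵁ W) (U.ι_image_le _) ((toR M U W).symm t)) := by
  rw [toR_symm_smul, g_smul, toR_smul]

/-- Build a morphism of restricted modules from maps on sections over the opens `V ≤ U`. -/
def mkOfSec (g : ∀ V : X.Opens, V ≤ U → (Γ(M, V) →+ Γ(N, V)))
    (g_res : ∀ (V W : X.Opens) (h : V ≤ U) (hW : W ≤ V) (x : Γ(M, V)),
      g W (hW.trans h) (res M hW x) = res N hW (g V h x))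
    (g_smul : ∀ (V : X.Opens) (h : V ≤ U) (r : Γ(X, V)) (x : Γ(M, V)),
      g V h (r • x) = r • g V h x) :
    M.restrict U.ι ⟶ N.restrict U.ι :=
  ⟨PresheafOfModules.homMk
    { app := fun W => AddCommGrpCat.ofHom
        (((toR N U W.unop).toAddMonoidHom.comp (g (U.ι ''ᵁ W.unop) (U.ι_image_le _))).comp
          (toR M U W.unop).symm.toAddMonoidHom)
      naturality := by
        intro W W' i
        apply AddCommGrpCat.hom_ext
        apply AddMonoidHom.ext
        intro t
        exact mkOfSec_aux_res g g_res (leOfHom i.unop) t }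
    (by
      intro W r t
      exact mkOfSec_aux_smul g g_smul W.unop r t)⟩

theorem mkOfSec_app (g : ∀ V : X.Opens, V ≤ U → (Γ(M, V) →+ Γ(N, V)))
    (g_res : ∀ (V W : X.Opens) (h : V ≤ U) (hW : W ≤ V) (x : Γ(M, V)),
      g W (hW.trans h) (res M hW x) = res N hW (g V h x))
    (g_smul : ∀ (V : X.Opens) (h : V ≤ U) (r : Γ(X, V)) (x : Γ(M, V)),
      g V h (r • x) = r • g V h x) (W : U.toScheme.Opens) (t : Γ(M.restrict U.ι, W)) :
    (mkOfSec g g_res g_smul).app W t =
      toR N U W (g (U.ι ''ᵁ W) (U.ι_image_le _) ((toR M U W).symm t)) := rfl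

theorem secMap_mkOfSec (g : ∀ V : X.Opens, V ≤ U → (Γ(M, V) →+ Γ(N, V)))
    (g_res : ∀ (V W : X.Opens) (h : V ≤ U) (hW : W ≤ V) (x : Γ(M, V)),
      g W (hW.trans h) (res M hW x) = res N hW (g V h x))
    (g_smul : ∀ (V : X.Opens) (h : V ≤ U) (r : Γ(X, V)) (x : Γ(M, V)),
      g V h (r • x) = r • g V h x) (V : X.Opens) (h : V ≤ U) (x : Γ(M, V)) :
    secMap (mkOfSec g g_res g_smul) V h x = g V h x := by
  rw [secMap_apply, mkOfSec_app, AddEquiv.symm_apply_apply, AddEquiv.symm_apply_apply,
    g_res V _ h, res_res, res_self]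

section mkIso

variable (e : ∀ V : X.Opens, V ≤ U → (Γ(M, V) ≃+ Γ(N, V)))
    (e_res : ∀ (V W : X.Opens) (h : V ≤ U) (hW : W ≤ V) (x : Γ(M, V)),
      e W (hW.trans h) (res M hW x) = res N hW (e V h x))
    (e_smul : ∀ (V : X.Opens) (h : V ≤ U) (r : Γ(X, V)) (x : Γ(M, V)),
      e V h (r • x) = r • e V h x)

/-- auxiliary: the forward map of `mkIsoOfSec` -/
def mkIsoHomAux : M.restrict U.ι ⟶ N.restrict U.ι :=
  mkOfSec (fun V h => (e V h).toAddMonoidHom) e_res e_smul

include e_res in
theorem mkIso_symm_res (V W : X.Opens) (h : V ≤ U) (hW : W ≤ V) (y : Γ(N, V)) :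
    (e W (hW.trans h)).symm (res N hW y) = res M hW ((e V h).symm y) := by
  apply (e W (hW.trans h)).injective
  rw [AddEquiv.apply_symm_apply, e_res V W h hW, AddEquiv.apply_symm_apply]

include e_smul in
theorem mkIso_symm_smul (V : X.Opens) (h : V ≤ U) (r : Γ(X, V)) (y : Γ(N, V)) :
    (e V h).symm (r • y) = r • (e V h).symm y := by
  apply (e V h).injective
  rw [AddEquiv.apply_symm_apply, e_smul V h, AddEquiv.apply_symm_apply]

/-- auxiliary: the backward map of `mkIsoOfSec` -/
def mkIsoInvAux : N.restrict U.ι ⟶ M.restrict U.ι :=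
  mkOfSec (fun V h => (e V h).symm.toAddMonoidHom) (mkIso_symm_res e e_res)
    (mkIso_symm_smul e e_smul)

theorem secMap_mkIsoHomAux (V : X.Opens) (h : V ≤ U) (x : Γ(M, V)) :
    secMap (mkIsoHomAux e e_res e_smul) V h x = e V h x :=
  secMap_mkOfSec _ _ _ V h x

theorem secMap_mkIsoInvAux (V : X.Opens) (h : V ≤ U) (y : Γ(N, V)) :
    secMap (mkIsoInvAux e e_res e_smul) V h y = (e V h).symm y :=
  secMap_mkOfSec _ _ _ V h y

/-- Build an isomorphism of restricted modules from bijections on sections over the opens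
`V ≤ U`. -/
def mkIsoOfSec : M.restrict U.ι ≅ N.restrict U.ι where
  hom := mkIsoHomAux e e_res e_smul
  inv := mkIsoInvAux e e_res e_smul
  hom_inv_id := by
    apply hom_ext_secMap
    intro V hV x
    rw [secMap_comp, secMap_mkIsoHomAux, secMap_mkIsoInvAux, secMap_id,
      AddEquiv.symm_apply_apply]
  inv_hom_id := by
    apply hom_ext_secMap
    intro V hV x
    rw [secMap_comp, secMap_mkIsoHomAux, secMap_mkIsoInvAux, secMap_id,
      AddEquiv.apply_symm_apply]

theorem secMap_mkIsoOfSec_hom (V : X.Opens) (h : V ≤ U) (x : Γ(M, V)) :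
    secMap (mkIsoOfSec e e_res e_smul).hom V h x = e V h x :=
  secMap_mkIsoHomAux e e_res e_smul V h x

theorem secMap_mkIsoOfSec_inv (V : X.Opens) (h : V ≤ U) (y : Γ(N, V)) :
    secMap (mkIsoOfSec e e_res e_smul).inv V h y = (e V h).symm y :=
  secMap_mkIsoInvAux e e_res e_smul V h y

end mkIso

theorem secMap_inv_hom (f : M.restrict U.ι ≅ N.restrict U.ι) (V : X.Opens) (h : V ≤ U)
    (x : Γ(M, V)) : secMap f.inv V h (secMap f.hom V h x) = x := by
  rw [← secMap_comp, Iso.hom_inv_id, secMap_id]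

theorem secMap_hom_inv (f : M.restrict U.ι ≅ N.restrict U.ι) (V : X.Opens) (h : V ≤ U)
    (y : Γ(N, V)) : secMap f.hom V h (secMap f.inv V h y) = y := by
  rw [← secMap_comp, Iso.inv_hom_id, secMap_id]

/-- Restriction of a morphism of restricted modules to a smaller open. -/
def resHom (f : M.restrict U.ι ⟶ N.restrict U.ι) {V : X.Opens} (h : V ≤ U) :
    M.restrict V.ι ⟶ N.restrict V.ι :=
  mkOfSec (fun W hW => secMap f W (hW.trans h)) (fun _ _ hV hW x => secMap_res f (hV.trans h) hW x)
    (fun W hW r x => secMap_smul f W (hW.trans h) r x)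

theorem secMap_resHom (f : M.restrict U.ι ⟶ N.restrict U.ι) {V : X.Opens} (h : V ≤ U)
    (W : X.Opens) (hW : W ≤ V) (x : Γ(M, W)) :
    secMap (resHom f h) W hW x = secMap f W (hW.trans h) x :=
  secMap_mkOfSec _ _ _ W hW x

theorem resHom_id {V : X.Opens} (h : V ≤ U) :
    resHom (𝟙 (M.restrict U.ι)) h = 𝟙 (M.restrict V.ι) := by
  apply hom_ext_secMap
  intro W hW x
  rw [secMap_resHom, secMap_id, secMap_id]

theorem resHom_comp (f : M.restrict U.ι ⟶ N.restrict U.ι) (g : N.restrict U.ι ⟶ K.restrict U.ι)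
    {V : X.Opens} (h : V ≤ U) : resHom (f ≫ g) h = resHom f h ≫ resHom g h := by
  apply hom_ext_secMap
  intro W hW x
  rw [secMap_resHom, secMap_comp, secMap_comp, secMap_resHom, secMap_resHom]

theorem resHom_resHom (f : M.restrict U.ι ⟶ N.restrict U.ι) {V V' : X.Opens} (h : V ≤ U)
    (h' : V' ≤ V) : resHom (resHom f h) h' = resHom f (h'.trans h) := by
  apply hom_ext_secMap
  intro W hW x
  rw [secMap_resHom, secMap_resHom, secMap_resHom]

theorem resHom_self (f : M.restrict U.ι ⟶ N.restrict U.ι) (h : U ≤ U) : resHom f h = f := by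
  apply hom_ext_secMap
  intro W hW x
  rw [secMap_resHom]

/-- Restriction of an isomorphism of restricted modules to a smaller open. -/
def resIso (f : M.restrict U.ι ≅ N.restrict U.ι) {V : X.Opens} (h : V ≤ U) :
    M.restrict V.ι ≅ N.restrict V.ι where
  hom := resHom f.hom h
  inv := resHom f.inv h
  hom_inv_id := by rw [← resHom_comp, Iso.hom_inv_id, resHom_id]
  inv_hom_id := by rw [← resHom_comp, Iso.inv_hom_id, resHom_id]

end secMap


/-! ### Gluing morphisms -/

section glueHom

variable {ι : Type*} (U : ι → X.Opens) (hU : ⨆ i, U i = ⊤) (M N : X.Modules)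

include hU in
theorem le_iSup_inf_cover (V : X.Opens) : V ≤ ⨆ i, V ⊓ U i := by
  rw [← inf_iSup_eq, hU, inf_top_eq]

variable (f : ∀ (i : ι) (V : X.Opens), V ≤ U i → (Γ(M, V) →+ Γ(N, V)))
  (f_res : ∀ (i : ι) (V W : X.Opens) (h : V ≤ U i) (hW : W ≤ V) (x : Γ(M, V)),
    f i W (hW.trans h) (res M hW x) = res N hW (f i V h x))
  (f_smul : ∀ (i : ι) (V : X.Opens) (h : V ≤ U i) (r : Γ(X, V)) (x : Γ(M, V)),
    f i V h (r • x) = r • f i V h x)
  (f_compat : ∀ (i j : ι) (V : X.Opens) (hi : V ≤ U i) (hj : V ≤ U j) (x : Γ(M, V)),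
    f i V hi x = f j V hj x)

include hU f_res f_compat in
theorem glueHom_exists (V : X.Opens) (x : Γ(M, V)) :
    ∃ z : Γ(N, V), ∀ i, res N (inf_le_left : V ⊓ U i ≤ V) z =
      f i (V ⊓ U i) inf_le_right (res M inf_le_left x) := by
  refine res_glue N (fun i => V ⊓ U i) V (fun _ => inf_le_left) (le_iSup_inf_cover U hU V)
    (fun i => f i (V ⊓ U i) inf_le_right (res M inf_le_left x)) ?_
  intro i j
  rw [← f_res i _ _ inf_le_right, ← f_res j _ _ inf_le_right, res_res, res_res]
  exact f_compat i j _ _ _ _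

/-- the glued map on sections -/
def glueHomFun (V : X.Opens) (x : Γ(M, V)) : Γ(N, V) :=
  (glueHom_exists U hU M N f f_res f_compat V x).choose

theorem glueHomFun_spec (V : X.Opens) (x : Γ(M, V)) (i : ι) :
    res N (inf_le_left : V ⊓ U i ≤ V) (glueHomFun U hU M N f f_res f_compat V x) =
      f i (V ⊓ U i) inf_le_right (res M inf_le_left x) :=
  (glueHom_exists U hU M N f f_res f_compat V x).choose_spec i

include hU in
theorem glueHom_ext (V : X.Opens) (z z' : Γ(N, V))
    (h : ∀ i, res N (inf_le_left : V ⊓ U i ≤ V) z = res N (inf_le_left : V ⊓ U i ≤ V) z') :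
    z = z' :=
  res_ext N (fun i => V ⊓ U i) V (fun _ => inf_le_left) (le_iSup_inf_cover U hU V) z z' h

/-- the glued map on sections, as an additive map -/
def glueHomAdd (V : X.Opens) : Γ(M, V) →+ Γ(N, V) :=
  AddMonoidHom.mk' (glueHomFun U hU M N f f_res f_compat V) (by
    intro x y
    apply glueHom_ext U hU N V
    intro i
    rw [map_add, glueHomFun_spec, glueHomFun_spec, glueHomFun_spec, map_add, map_add])

theorem glueHomAdd_spec (V : X.Opens) (x : Γ(M, V)) (i : ι) :
    res N (inf_le_left : V ⊓ U i ≤ V) (glueHomAdd U hU M N f f_res f_compat V x) =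
      f i (V ⊓ U i) inf_le_right (res M inf_le_left x) :=
  glueHomFun_spec U hU M N f f_res f_compat V x i

theorem glueHomAdd_res {V W : X.Opens} (h : W ≤ V) (x : Γ(M, V)) :
    glueHomAdd U hU M N f f_res f_compat W (res M h x) =
      res N h (glueHomAdd U hU M N f f_res f_compat V x) := by
  apply glueHom_ext U hU N W
  intro i
  rw [glueHomAdd_spec, res_res, res_res]
  have h1 := congrArg (res N (inf_le_inf_right (U i) h))
    (glueHomAdd_spec U hU M N f f_res f_compat V x i)
  rw [res_res, ← f_res i _ _ inf_le_right, res_res] at h1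
  exact h1.symm

include f_smul in
theorem glueHomAdd_smul (V : X.Opens) (r : Γ(X, V)) (x : Γ(M, V)) :
    glueHomAdd U hU M N f f_res f_compat V (r • x) =
      r • glueHomAdd U hU M N f f_res f_compat V x := by
  apply glueHom_ext U hU N V
  intro i
  rw [glueHomAdd_spec, res_smul, res_smul, glueHomAdd_spec, f_smul]

theorem glueHomAdd_eq (i : ι) (V : X.Opens) (h : V ≤ U i) (x : Γ(M, V)) :
    glueHomAdd U hU M N f f_res f_compat V x = f i V h x := by
  apply glueHom_ext U hU N V
  intro j
  rw [glueHomAdd_spec, ← f_res i V _ h]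
  exact f_compat j i _ _ _ _

/-- The glued morphism of modules (sections-level input). -/
def glueHom : M ⟶ N :=
  ⟨PresheafOfModules.homMk
    { app := fun W => AddCommGrpCat.ofHom (glueHomAdd U hU M N f f_res f_compat W.unop)
      naturality := by
        intro W W' i
        apply AddCommGrpCat.hom_ext
        apply AddMonoidHom.ext
        intro t
        exact glueHomAdd_res U hU M N f f_res f_compat (leOfHom i.unop) t }
    (by
      intro W r t
      exact glueHomAdd_smul U hU M N f f_res f_smul f_compat W.unop r t)⟩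

theorem glueHom_app (V : X.Opens) (x : Γ(M, V)) :
    (glueHom U hU M N f f_res f_smul f_compat).app V x =
      glueHomAdd U hU M N f f_res f_compat V x := rfl

theorem glueHom_app_eq (i : ι) (V : X.Opens) (h : V ≤ U i) (x : Γ(M, V)) :
    (glueHom U hU M N f f_res f_smul f_compat).app V x = f i V h x := by
  rw [glueHom_app, glueHomAdd_eq]

end glueHom

/-- A morphism of modules is determined by its restrictions to the members of an open cover. -/
theorem hom_ext_of_cover {ι : Type*} (U : ι → X.Opens) (hU : ⨆ i, U i = ⊤) {M N : X.Modules}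
    (g g' : M ⟶ N)
    (h : ∀ i, (Scheme.Modules.restrictFunctor (U i).ι).map g =
      (Scheme.Modules.restrictFunctor (U i).ι).map g') : g = g' := by
  apply Scheme.Modules.hom_ext
  intro V
  apply AddCommGrpCat.hom_ext
  apply AddMonoidHom.ext
  intro x
  apply glueHom_ext U hU N V
  intro i
  have h1 := secMap_restrictFunctor_map (U := U i) g (V ⊓ U i) inf_le_right (res M inf_le_left x)
  have h2 := secMap_restrictFunctor_map (U := U i) g' (V ⊓ U i) inf_le_right (res M inf_le_left x)
  rw [h i, h2, app_res, app_res] at h1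
  exact h1.symm

/-- **Gluing morphisms of modules**: compatible morphisms between the restrictions to the
members of an open cover glue uniquely. -/
theorem exists_unique_hom_of_cover {ι : Type*} (U : ι → X.Opens) (hU : ⨆ i, U i = ⊤)
    (M N : X.Modules) (f : ∀ i, M.restrict (U i).ι ⟶ N.restrict (U i).ι)
    (hf : ∀ i j, resHom (f i) (inf_le_left : U i ⊓ U j ≤ U i) =
      resHom (f j) (inf_le_right : U i ⊓ U j ≤ U j)) :
    ∃! g : M ⟶ N, ∀ i, (Scheme.Modules.restrictFunctor (U i).ι).map g = f i := by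
  have hcompat : ∀ (i j : ι) (V : X.Opens) (hi : V ≤ U i) (hj : V ≤ U j) (x : Γ(M, V)),
      secMap (f i) V hi x = secMap (f j) V hj x := by
    intro i j V hi hj x
    have h1 := secMap_resHom (f i) (inf_le_left : U i ⊓ U j ≤ U i) V (le_inf hi hj) x
    have h2 := secMap_resHom (f j) (inf_le_right : U i ⊓ U j ≤ U j) V (le_inf hi hj) x
    rw [← h1, ← h2, hf i j]
  refine ⟨glueHom U hU M N (fun i V h => secMap (f i) V h)
    (fun i V W h hW x => secMap_res (f i) h hW x)
    (fun i V h r x => secMap_smul (f i) V h r x) hcompat, ?_, ?_⟩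
  · intro i
    apply hom_ext_secMap
    intro V hV x
    rw [secMap_restrictFunctor_map, glueHom_app_eq _ _ _ _ _ _ _ _ i V hV]
  · intro g' hg'
    apply hom_ext_of_cover U hU
    intro i
    rw [hg' i]
    symm
    apply hom_ext_secMap
    intro V hV x
    rw [secMap_restrictFunctor_map, glueHom_app_eq _ _ _ _ _ _ _ _ i V hV]

/-- **Gluing isomorphisms of modules** along an open cover. -/
theorem exists_iso_of_cover {ι : Type*} (U : ι → X.Opens) (hU : ⨆ i, U i = ⊤)
    (M N : X.Modules) (f : ∀ i, M.restrict (U i).ι ≅ N.restrict (U i).ι)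
    (hf : ∀ i j, resHom (f i).hom (inf_le_left : U i ⊓ U j ≤ U i) =
      resHom (f j).hom (inf_le_right : U i ⊓ U j ≤ U j)) :
    ∃ g : M ≅ N, ∀ i, (Scheme.Modules.restrictFunctor (U i).ι).map g.hom = (f i).hom := by
  obtain ⟨g, hg, -⟩ := exists_unique_hom_of_cover U hU M N (fun i => (f i).hom) hf
  have hf' : ∀ i j, resHom (f i).inv (inf_le_left : U i ⊓ U j ≤ U i) =
      resHom (f j).inv (inf_le_right : U i ⊓ U j ≤ U j) := by
    intro i j
    have h1 : resHom (f i).inv (inf_le_left : U i ⊓ U j ≤ U i) =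
        (resIso (f i) (inf_le_left : U i ⊓ U j ≤ U i)).inv := rfl
    have h2 : resHom (f j).inv (inf_le_right : U i ⊓ U j ≤ U j) =
        (resIso (f j) (inf_le_right : U i ⊓ U j ≤ U j)).inv := rfl
    rw [h1, h2]
    have h3 : resIso (f i) (inf_le_left : U i ⊓ U j ≤ U i) =
        resIso (f j) (inf_le_right : U i ⊓ U j ≤ U j) := Iso.ext (hf i j)
    rw [h3]
  obtain ⟨g', hg', -⟩ := exists_unique_hom_of_cover U hU N M (fun i => (f i).inv) hf'
  refine ⟨⟨g, g', ?_, ?_⟩, hg⟩
  · apply hom_ext_of_cover U hU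
    intro i
    rw [Functor.map_comp, hg i, hg' i, Iso.hom_inv_id, CategoryTheory.Functor.map_id]
  · apply hom_ext_of_cover U hU
    intro i
    rw [Functor.map_comp, hg i, hg' i, Iso.inv_hom_id, CategoryTheory.Functor.map_id]


/-! ### Gluing objects -/

section glueObj

variable {ι : Type u} (U : ι → X.Opens) (N : ι → X.Modules)
  (φ : ∀ i j, (N i).restrict (U i ⊓ U j).ι ≅ (N j).restrict (U i ⊓ U j).ι)

/-- The cocycle condition for transition isomorphisms, on sections. -/
def SecCocycle : Prop :=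
  ∀ (i j k : ι) (V : X.Opens) (hij : V ≤ U i ⊓ U j) (hjk : V ≤ U j ⊓ U k) (hik : V ≤ U i ⊓ U k)
    (x : Γ(N i, V)),
    secMap (φ j k).hom V hjk (secMap (φ i j).hom V hij x) = secMap (φ i k).hom V hik x

/-- The cocycle condition for transition isomorphisms, as an equality of morphisms of modules
on the triple overlaps. -/
def Cocycle : Prop :=
  ∀ i j k : ι,
    resHom (φ i j).hom (inf_le_left : U i ⊓ U j ⊓ U k ≤ U i ⊓ U j) ≫
      resHom (φ j k).hom
        (le_inf (inf_le_left.trans inf_le_right) inf_le_right : U i ⊓ U j ⊓ U k ≤ U j ⊓ U k) =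
    resHom (φ i k).hom
      (le_inf (inf_le_left.trans inf_le_left) inf_le_right : U i ⊓ U j ⊓ U k ≤ U i ⊓ U k)

variable {U N φ}

theorem secCocycle_of_cocycle (h : Cocycle U N φ) : SecCocycle U N φ := by
  intro i j k V hij hjk hik x
  have hV : V ≤ U i ⊓ U j ⊓ U k := le_inf hij (hjk.trans inf_le_right)
  have h1 := congrArg (fun f => secMap f V hV x) (h i j k)
  simp only [secMap_comp, secMap_resHom] at h1
  exact h1

theorem cocycle_of_secCocycle (h : SecCocycle U N φ) : Cocycle U N φ := by
  intro i j k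
  apply hom_ext_secMap
  intro V hV x
  rw [secMap_comp, secMap_resHom, secMap_resHom, secMap_resHom]
  exact h i j k V _ _ _ x

theorem secMap_self_of_secCocycle (h : SecCocycle U N φ) (i : ι) (V : X.Opens)
    (hV : V ≤ U i ⊓ U i) (x : Γ(N i, V)) : secMap (φ i i).hom V hV x = x := by
  have h1 := h i i i V hV hV hV x
  have h2 := congrArg (secMap (φ i i).inv V hV) h1
  rw [secMap_inv_hom, secMap_inv_hom] at h2
  exact h2

variable (U N φ)

/-- The sections-level gluing datum attached to transition isomorphisms. -/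
def glueDatum (h : SecCocycle U N φ) : SecGlue X ι where
  U := U
  N := N
  φ i j V hV := secMap (φ i j).hom V hV
  φ_res i j _ _ hV hW x := secMap_res (φ i j).hom hV hW x
  φ_smul i j V hV r x := secMap_smul (φ i j).hom V hV r x
  φ_self i V hV x := secMap_self_of_secCocycle h i V hV x
  φ_comp i j k V hij hjk hik x := h i j k V hij hjk hik x

/-- The glued module. -/
def glue (h : SecCocycle U N φ) : X.Modules :=
  (glueDatum U N φ h).glued

/-- The glued module restricts to the given modules. -/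
def glueIso (h : SecCocycle U N φ) (i : ι) :
    (glue U N φ h).restrict (U i).ι ≅ (N i).restrict (U i).ι :=
  mkIsoOfSec (fun V hV => (glueDatum U N φ h).gluedEquiv i V hV)
    (fun _ _ hV hW s => (glueDatum U N φ h).gluedEquiv_res i hV hW s)
    (fun V hV r s => (glueDatum U N φ h).gluedEquiv_smul i V hV r s)

theorem secMap_glueIso_hom (h : SecCocycle U N φ) (i : ι) (V : X.Opens) (hV : V ≤ U i)
    (x : Γ(glue U N φ h, V)) :
    secMap (glueIso U N φ h i).hom V hV x = (glueDatum U N φ h).gluedEquiv i V hV x :=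
  secMap_mkIsoOfSec_hom _ _ _ V hV x

theorem glueIso_compat_sec (h : SecCocycle U N φ) (i j : ι) (V : X.Opens)
    (hV : V ≤ U i ⊓ U j) (x : Γ(glue U N φ h, V)) :
    secMap (φ i j).hom V hV (secMap (glueIso U N φ h i).hom V (hV.trans inf_le_left) x) =
      secMap (glueIso U N φ h j).hom V (hV.trans inf_le_right) x := by
  rw [secMap_glueIso_hom, secMap_glueIso_hom]
  exact (glueDatum U N φ h).φ_gluedEquiv i j V hV x

theorem glueIso_compat (h : SecCocycle U N φ) (i j : ι) :
    resHom (glueIso U N φ h i).hom (inf_le_left : U i ⊓ U j ≤ U i) ≫ (φ i j).hom =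
      resHom (glueIso U N φ h j).hom (inf_le_right : U i ⊓ U j ≤ U j) := by
  apply hom_ext_secMap
  intro V hV x
  rw [secMap_comp, secMap_resHom, secMap_resHom]
  exact glueIso_compat_sec U N φ h i j V hV x

/-- **Gluing of sheaves of modules**: modules `N i` with transition isomorphisms on the overlaps
`U i ⊓ U j` satisfying the cocycle condition glue to a module on `X` whose restriction to `U i`
is `N i`, compatibly with the transition isomorphisms. -/
theorem exists_glue (h : Cocycle U N φ) :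
    ∃ (M : X.Modules) (e : ∀ i, M.restrict (U i).ι ≅ (N i).restrict (U i).ι),
      ∀ i j, resHom (e i).hom (inf_le_left : U i ⊓ U j ≤ U i) ≫ (φ i j).hom =
        resHom (e j).hom (inf_le_right : U i ⊓ U j ≤ U j) :=
  ⟨glue U N φ (secCocycle_of_cocycle h), glueIso U N φ (secCocycle_of_cocycle h),
    glueIso_compat U N φ (secCocycle_of_cocycle h)⟩

/-- Uniqueness of the glued module when the opens cover `X`. -/
theorem glue_unique (hU : ⨆ i, U i = ⊤) (h : SecCocycle U N φ) (M' : X.Modules)
    (e' : ∀ i, M'.restrict (U i).ι ≅ (N i).restrict (U i).ι)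
    (he' : ∀ i j, resHom (e' i).hom (inf_le_left : U i ⊓ U j ≤ U i) ≫ (φ i j).hom =
        resHom (e' j).hom (inf_le_right : U i ⊓ U j ≤ U j)) :
    ∃ g : M' ≅ glue U N φ h, ∀ i,
      (Scheme.Modules.restrictFunctor (U i).ι).map g.hom ≫ (glueIso U N φ h i).hom =
        (e' i).hom := by
  have he'sec : ∀ (i j : ι) (V : X.Opens) (hV : V ≤ U i ⊓ U j) (x : Γ(M', V)),
      secMap (φ i j).hom V hV (secMap (e' i).hom V (hV.trans inf_le_left) x) =
        secMap (e' j).hom V (hV.trans inf_le_right) x := by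
    intro i j V hV x
    have h1 := congrArg (fun f => secMap f V hV x) (he' i j)
    simp only [secMap_comp, secMap_resHom] at h1
    exact h1
  obtain ⟨g, hg⟩ := exists_iso_of_cover U hU M' (glue U N φ h)
    (fun i => e' i ≪≫ (glueIso U N φ h i).symm) (by
      intro i j
      apply hom_ext_secMap
      intro V hV x
      rw [secMap_resHom, secMap_resHom]
      simp only [Iso.trans_hom, Iso.symm_hom, secMap_comp]
      have hinj : Function.Injective
          (secMap (glueIso U N φ h j).hom V (hV.trans inf_le_right)) := by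
        intro a b hab
        have := congrArg (secMap (glueIso U N φ h j).inv V (hV.trans inf_le_right)) hab
        rw [secMap_inv_hom, secMap_inv_hom] at this
        exact this
      apply hinj
      rw [secMap_hom_inv, ← glueIso_compat_sec U N φ h i j V hV, secMap_hom_inv, he'sec])
  refine ⟨g, fun i => ?_⟩
  rw [hg i]
  simp

end glueObj

end Fermat.Agent.S25.DICT.H7710

end
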